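import Fermat.Agent.S28.AN.CuspLemmas

/-!
# S28, Part I, piece P4: the expansions of `y ∘ γ`, `1/(y ∘ γ)`, `j(d · γτ)` at the cusps

Derived from the sub-pieces C1–C5 (`AN/CuspLemmas.lean`) and the calculus P3 (`AN/TExp.lean`).
-/

set_option autoImplicit false

noncomputable section

namespace Fermat.Agent.S28

open ModularCurve UpperHalfPlane Polynomial
open scoped MatrixGroups Manifold

/-! ## Generic closure properties of `HasTExp` -/

theorem HasTExp.const (N : ℕ) (c : ℂ) : HasTExp N (fun _ => c) (HahnSeries.C c) := by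
  intro τ
  have h := hasSum_single (f := fun n : ℤ => (HahnSeries.C c : LaurentSeries ℂ).coeff n *
    Complex.exp (2 * Real.pi * Complex.I * n * (τ : ℂ) / N)) 0 (by
      intro n hn
      simp [HahnSeries.C_apply, HahnSeries.coeff_single_of_ne hn])
  simpa [HahnSeries.C_apply] using h

theorem HasTExp.one' (N : ℕ) : HasTExp N (fun _ => 1) 1 := HasTExp.one N

theorem HasTExp.mul' {N : ℕ} [NeZero N] {F G : ℍ → ℂ} {f g : LaurentSeries ℂ}
    (hF : HasTExp N F f) (hG : HasTExp N G g) : HasTExp N (fun τ => F τ * G τ) (f * g) :=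
  hF.mul hG

theorem HasTExp.pow {N : ℕ} [NeZero N] {F : ℍ → ℂ} {f : LaurentSeries ℂ} (hF : HasTExp N F f)
    (n : ℕ) : HasTExp N (fun τ => F τ ^ n) (f ^ n) := by
  induction n with
  | zero => simpa using HasTExp.one' N
  | succ n ih =>
    have := ih.mul' hF
    simpa [pow_succ] using this

theorem HasTExp.prod {N : ℕ} [NeZero N] {ι : Type*} (s : Finset ι) {F : ι → ℍ → ℂ}
    {f : ι → LaurentSeries ℂ} (h : ∀ i ∈ s, HasTExp N (F i) (f i)) :
    HasTExp N (fun τ => ∏ i ∈ s, F i τ) (∏ i ∈ s, f i) := by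
  classical
  induction s using Finset.induction_on with
  | empty => simpa using HasTExp.one' N
  | insert i s hi ih =>
    have h1 := (h i (Finset.mem_insert_self i s)).mul'
      (ih fun j hj => h j (Finset.mem_insert_of_mem hj))
    simpa [Finset.prod_insert hi] using h1

theorem HasTExp.zpow {N : ℕ} [NeZero N] {F : ℍ → ℂ} {u : (LaurentSeries ℂ)ˣ}
    (hF : HasTExp N F (u : LaurentSeries ℂ))
    (hFi : HasTExp N (fun τ => (F τ)⁻¹) ((u⁻¹ : (LaurentSeries ℂ)ˣ) : LaurentSeries ℂ)) (k : ℤ) :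
    HasTExp N (fun τ => F τ ^ k) ((u ^ k : (LaurentSeries ℂ)ˣ) : LaurentSeries ℂ) := by
  cases k with
  | ofNat n =>
    simpa using hF.pow n
  | negSucc n =>
    have := hFi.pow (n + 1)
    simpa [zpow_negSucc, inv_pow] using this

/-! ## Naturality of the formal operations under coefficient maps -/

section Naturality

variable {R S : Type*} [CommRing R] [CommRing S] (φ : R →+* S)

theorem coeffMap_twistHom (c : Rˣ) (f : LaurentSeries R) :
    coeffMap φ (twistHom c f) = twistHom (Units.map φ.toMonoidHom c) (coeffMap φ f) := by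
  ext n
  simp only [coeffMap_coeff, twistHom_coeff, map_mul]
  congr 1
  rw [← map_zpow]
  rfl

theorem coeffMap_expandHom (m : ℕ) (f : LaurentSeries R) :
    coeffMap φ (expandHom R m f) = expandHom S m (coeffMap φ f) := by
  unfold expandHom
  split_ifs with h
  · rfl
  · haveI : NeZero m := ⟨h⟩
    exact coeffMap_qExpand φ m f

theorem coeffMap_substHom (c : Rˣ) (m : ℕ) (f : LaurentSeries R) :
    coeffMap φ (substHom c m f) = substHom (Units.map φ.toMonoidHom c) m (coeffMap φ f) := by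
  simp only [substHom, RingHom.comp_apply, coeffMap_expandHom, coeffMap_twistHom]

theorem coeffMap_C (r : R) :
    coeffMap φ (HahnSeries.C r : LaurentSeries R) = HahnSeries.C (φ r) := by
  rw [HahnSeries.C_apply, HahnSeries.C_apply, coeffMap_single]

theorem coeffMap_deltaUnit :
    coeffMap φ (deltaUnit R : LaurentSeries R) = (deltaUnit S : LaurentSeries S) := by
  show coeffMap φ (HahnSeries.single (1 : ℤ) (1 : R) *
      HahnSeries.ofPowerSeries ℤ R (dedekindEtaUnit.map (Int.castRingHom R))) =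
    HahnSeries.single (1 : ℤ) (1 : S) *
      HahnSeries.ofPowerSeries ℤ S (dedekindEtaUnit.map (Int.castRingHom S))
  rw [map_mul, coeffMap_single, map_one, coeffMap_ofPowerSeries,
    ← RingHom.comp_apply (PowerSeries.map φ) (PowerSeries.map (Int.castRingHom R)),
    ← PowerSeries.map_comp, RingHom.ext_int (φ.comp (Int.castRingHom R)) (Int.castRingHom S)]

theorem map_coeffMap_deltaUnit :
    Units.map (coeffMap φ).toMonoidHom (deltaUnit R) = deltaUnit S :=
  Units.ext (coeffMap_deltaUnit φ)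

theorem coeffMap_deltaUnit_inv :
    coeffMap φ (((deltaUnit R)⁻¹ : (LaurentSeries R)ˣ) : LaurentSeries R) =
      (((deltaUnit S)⁻¹ : (LaurentSeries S)ˣ) : LaurentSeries S) := by
  rw [← map_coeffMap_deltaUnit φ, ← map_inv]
  rfl

end Naturality

/-! ## The units `1/δ` -/

theorem invNatU_val (N : ℕ) [NeZero N] {δ : ℕ} (hδ : δ ∣ N) :
    (((invNatU N δ : (RN N)ˣ) : RN N) : ℂ) = (δ : ℂ)⁻¹ := by
  have hN : (N : ℂ) ≠ 0 := Nat.cast_ne_zero.mpr (NeZero.ne N)
  have hδ0 : (δ : ℂ) ≠ 0 := Nat.cast_ne_zero.mpr (ne_zero_of_dvd_ne_zero (NeZero.ne N) hδ)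
  rw [invNatU, dif_pos hδ]
  show ((N / δ : ℕ) : ℂ) * (N : ℂ)⁻¹ = (δ : ℂ)⁻¹
  rw [Nat.cast_div hδ hδ0]
  field_simp

theorem invNatU_inv_val (N : ℕ) [NeZero N] {δ : ℕ} (hδ : δ ∣ N) :
    ((((invNatU N δ)⁻¹ : (RN N)ˣ) : RN N) : ℂ) = (δ : ℂ) := by
  rw [invNatU, dif_pos hδ]
  rfl

theorem cuspDelta_dvd {N : ℕ} (γ : SL(2, ℤ)) {d : ℕ} (hd : d ∣ N) : cuspDelta γ d ∣ N :=
  (Nat.div_dvd_of_dvd (Nat.gcd_dvd_left d _)).trans hd

/-! ## The factors `G_d(τ) = δ^(-12) Δ((aτ+b)/δ)` -/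

section Main

variable (N : ℕ) [NeZero N] (γ : SL(2, ℤ))

/-- `G_d(τ) = δ^(-12) Δ((aτ+b)/δ)`. -/
def cuspG (d : ℕ) (τ : ℍ) : ℂ :=
  ((cuspDelta γ d : ℂ)⁻¹) ^ 12 * ModularForm.discriminant (cuspPt γ d τ)

theorem DeltaCusp_val (d : ℕ) :
    (DeltaCusp N γ d : LaurentSeries (RN N)) =
      HahnSeries.C (((invNatU N (cuspDelta γ d) : (RN N)ˣ) : RN N) ^ 12) *
        substHom (cuspZ N γ d) (cuspM N γ d) (deltaUnit (RN N) : LaurentSeries (RN N)) := by
  rw [DeltaCusp, Units.val_mul, Units.coe_map, Units.coe_map, Units.val_pow_eq_pow_val]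
  rfl

theorem DeltaCusp_inv_val (d : ℕ) :
    (((DeltaCusp N γ d)⁻¹ : (LaurentSeries (RN N))ˣ) : LaurentSeries (RN N)) =
      HahnSeries.C ((((invNatU N (cuspDelta γ d))⁻¹ : (RN N)ˣ) : RN N) ^ 12) *
        substHom (cuspZ N γ d) (cuspM N γ d)
          (((deltaUnit (RN N))⁻¹ : (LaurentSeries (RN N))ˣ) : LaurentSeries (RN N)) := by
  rw [DeltaCusp, mul_inv_rev, mul_comm, ← map_inv, ← map_inv, ← inv_pow, Units.val_mul,
    Units.coe_map, Units.coe_map, Units.val_pow_eq_pow_val]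
  rfl

theorem coeffMap_DeltaCusp (d : ℕ) (hd : d ∣ N) :
    coeffMap (RN N).subtype (DeltaCusp N γ d : LaurentSeries (RN N)) =
      HahnSeries.C (((cuspDelta γ d : ℂ)⁻¹) ^ 12) *
        substHom (Units.map (RN N).subtype.toMonoidHom (cuspZ N γ d)) (cuspM N γ d)
          (deltaUnit ℂ : LaurentSeries ℂ) := by
  rw [DeltaCusp_val, map_mul, coeffMap_C, coeffMap_substHom, coeffMap_deltaUnit, map_pow,
    show (RN N).subtype ((invNatU N (cuspDelta γ d) : (RN N)ˣ) : RN N) = (cuspDelta γ d : ℂ)⁻¹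
      from invNatU_val N (cuspDelta_dvd γ hd)]

theorem coeffMap_DeltaCusp_inv (d : ℕ) (hd : d ∣ N) :
    coeffMap (RN N).subtype (((DeltaCusp N γ d)⁻¹ : (LaurentSeries (RN N))ˣ) : LaurentSeries (RN N)) =
      HahnSeries.C ((cuspDelta γ d : ℂ) ^ 12) *
        substHom (Units.map (RN N).subtype.toMonoidHom (cuspZ N γ d)) (cuspM N γ d)
          (((deltaUnit ℂ)⁻¹ : (LaurentSeries ℂ)ˣ) : LaurentSeries ℂ) := by
  rw [DeltaCusp_inv_val, map_mul, coeffMap_C, coeffMap_substHom, coeffMap_deltaUnit_inv, map_pow,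
    show (RN N).subtype (((invNatU N (cuspDelta γ d))⁻¹ : (RN N)ˣ) : RN N) = (cuspDelta γ d : ℂ)
      from invNatU_inv_val N (cuspDelta_dvd γ hd)]

theorem hasTExp_cuspG (d : ℕ) (hd : d ∣ N) :
    HasTExp N (cuspG γ d) (coeffMap (RN N).subtype (DeltaCusp N γ d : LaurentSeries (RN N))) := by
  rw [coeffMap_DeltaCusp N γ d hd]
  exact (HasTExp.const N _).mul' (hasTExp_discriminant.subst N γ d hd)

theorem hasTExp_cuspG_inv (d : ℕ) (hd : d ∣ N) :
    HasTExp N (fun τ => (cuspG γ d τ)⁻¹) (coeffMap (RN N).subtype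
      (((DeltaCusp N γ d)⁻¹ : (LaurentSeries (RN N))ˣ) : LaurentSeries (RN N))) := by
  rw [coeffMap_DeltaCusp_inv N γ d hd]
  have h := (HasTExp.const N ((cuspDelta γ d : ℂ) ^ 12)).mul'
    (hasTExp_discriminant_inv.subst N γ d hd)
  have e : (fun τ => (cuspG γ d τ)⁻¹) = fun τ : ℍ => (cuspDelta γ d : ℂ) ^ 12 *
      (ModularForm.discriminant (cuspPt γ d τ))⁻¹ := by
    funext τ
    rw [cuspG, mul_inv, inv_pow, inv_inv]
  rw [e]
  exact h

/-! ## Products of integer powers -/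

theorem prod_zpow_const {ι : Type*} (x : ℂ) (hx : x ≠ 0) (s : Finset ι) (e : ι → ℤ) :
    ∏ i ∈ s, x ^ e i = x ^ ∑ i ∈ s, e i := by
  classical
  induction s using Finset.induction_on with
  | empty => simp
  | insert i s hi ih => rw [Finset.prod_insert hi, Finset.sum_insert hi, ih, zpow_add₀ hx]

/-- The `N`-level expansion of `Δ`, as a unit. -/
def deltaN : (LaurentSeries ℂ)ˣ :=
  Units.map (qExpand ℂ N).toMonoidHom (deltaUnit ℂ)

theorem hasTExp_deltaN : HasTExp N ModularForm.discriminant (deltaN N : LaurentSeries ℂ) :=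
  hasTExp_discriminant.expand N

theorem hasTExp_deltaN_inv :
    HasTExp N (fun τ => (ModularForm.discriminant τ)⁻¹)
      (((deltaN N)⁻¹ : (LaurentSeries ℂ)ˣ) : LaurentSeries ℂ) := by
  have h := hasTExp_discriminant_inv.expand N
  have e : (((deltaN N)⁻¹ : (LaurentSeries ℂ)ˣ) : LaurentSeries ℂ) =
      qExpand ℂ N (((deltaUnit ℂ)⁻¹ : (LaurentSeries ℂ)ˣ) : LaurentSeries ℂ) := by
    rw [deltaN, ← map_inv]
    rfl
  rw [e]
  exact h

/-- The image of `DeltaCusp` in `ℂ((t))`, as a unit. -/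
def cuspU (d : ℕ) : (LaurentSeries ℂ)ˣ :=
  Units.map (coeffMap (RN N).subtype).toMonoidHom (DeltaCusp N γ d)

theorem hasTExp_cuspProd (e : ℕ → ℤ) (k : ℤ) :
    HasTExp N (fun τ => (∏ d ∈ N.divisors, cuspG γ d τ ^ e d) * ModularForm.discriminant τ ^ k)
      ((((∏ d ∈ N.divisors, cuspU N γ d ^ e d) * deltaN N ^ k : (LaurentSeries ℂ)ˣ)) :
        LaurentSeries ℂ) := by
  rw [Units.val_mul, Units.coe_prod]
  refine HasTExp.mul' (HasTExp.prod _ fun d hd => ?_) ((hasTExp_deltaN N).zpow (hasTExp_deltaN_inv N) k)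
  have hdN : d ∣ N := Nat.dvd_of_mem_divisors hd
  refine HasTExp.zpow (u := cuspU N γ d) (hasTExp_cuspG N γ d hdN) ?_ (e d)
  have := hasTExp_cuspG_inv N γ d hdN
  rw [cuspU, ← map_inv]
  exact this

theorem map_coeffMap_Ycusp :
    Units.map (coeffMap (RN N).subtype).toMonoidHom (Ycusp N γ) =
      (∏ d ∈ N.divisors, cuspU N γ d ^ ((d : ℤ) * ArithmeticFunction.moebius (N / d))) *
        deltaN N ^ (-(N.totient : ℤ)) := by
  rw [Ycusp, map_mul, map_prod, map_zpow]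
  congr 1
  · refine Finset.prod_congr rfl fun d _ => ?_
    rw [map_zpow]
    rfl
  · congr 1
    apply Units.ext
    show coeffMap (RN N).subtype (qExpand (RN N) N (deltaUnit (RN N) : LaurentSeries (RN N))) =
      qExpand ℂ N (deltaUnit ℂ : LaurentSeries ℂ)
    rw [coeffMap_qExpand, coeffMap_deltaUnit]

theorem cuspG_ne_zero (d : ℕ) (hd : 0 < d) (τ : ℍ) : cuspG γ d τ ≠ 0 := by
  have hδ : 0 < cuspDelta γ d := by
    have ha : cuspA γ d ∣ d := Nat.gcd_dvd_left d _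
    exact Nat.div_pos (Nat.le_of_dvd hd ha) (Nat.pos_of_dvd_of_pos ha hd)
  exact mul_ne_zero (pow_ne_zero _ (inv_ne_zero (Nat.cast_ne_zero.mpr hδ.ne')))
    (ModularForm.discriminant_ne_zero _)

/-- The automorphy factors cancel: `y(γτ) = ∏_d G_d(τ)^(d μ(N/d)) · Δ(τ)^(-φ(N))`. -/
theorem yFun_smul_eq (τ : ℍ) :
    yFun N (γ • τ) =
      (∏ d ∈ N.divisors, cuspG γ d τ ^ ((d : ℤ) * ArithmeticFunction.moebius (N / d))) *
        ModularForm.discriminant τ ^ (-(N.totient : ℤ)) := by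
  set D : ℂ := ((γ 1 0 : ℤ) : ℂ) * (τ : ℂ) + ((γ 1 1 : ℤ) : ℂ) with hD
  have hD0 : D ≠ 0 := denom_ne_zero' γ τ
  have hD12 : D ^ 12 ≠ 0 := pow_ne_zero _ hD0
  have h1 : ∀ d ∈ N.divisors, ModularForm.discriminant (scaleH d (γ • τ)) =
      D ^ 12 * cuspG γ d τ := by
    intro d hd
    rw [discriminant_scaleH_smul γ d (Nat.pos_of_mem_divisors hd) τ, cuspG, ← hD, div_eq_mul_inv,
      mul_pow, mul_assoc]
  have h2 : ModularForm.discriminant (γ • τ) = D ^ 12 * ModularForm.discriminant τ :=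
    discriminant_smul_eq γ τ
  rw [yFun, h2, Finset.prod_congr rfl fun d hd => by rw [h1 d hd]]
  simp only [mul_zpow, Finset.prod_mul_distrib]
  rw [prod_zpow_const (D ^ 12) hD12, sum_divisors_mul_moebius, zpow_neg, zpow_neg]
  have h3 : (D ^ 12) ^ (N.totient : ℤ) * ((D ^ 12) ^ (N.totient : ℤ))⁻¹ = 1 :=
    mul_inv_cancel₀ (zpow_ne_zero _ hD12)
  linear_combination ((∏ d ∈ N.divisors, cuspG γ d τ ^ ((d : ℤ) * ArithmeticFunction.moebius (N / d))) *
    (ModularForm.discriminant τ ^ (N.totient : ℤ))⁻¹) * h3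

/-- **P4a.** `y ∘ γ` has the `t`-expansion `Ycusp N γ`. -/
theorem hasTExp_yFun_smul :
    HasTExp N (fun τ : ℍ => yFun N (γ • τ)) (coeffMap (RN N).subtype (Ycusp N γ)) := by
  have e : coeffMap (RN N).subtype (Ycusp N γ : LaurentSeries (RN N)) =
      ((Units.map (coeffMap (RN N).subtype).toMonoidHom (Ycusp N γ) : (LaurentSeries ℂ)ˣ) :
        LaurentSeries ℂ) := rfl
  rw [e, map_coeffMap_Ycusp, funext (yFun_smul_eq N γ)]
  exact hasTExp_cuspProd N γ _ _

/-- **P4b.** `1 / (y ∘ γ)` has the `t`-expansion `(Ycusp N γ)⁻¹`. -/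
theorem hasTExp_yFun_inv_smul :
    HasTExp N (fun τ : ℍ => (yFun N (γ • τ))⁻¹)
      (coeffMap (RN N).subtype (((Ycusp N γ)⁻¹ : (LaurentSeries (RN N))ˣ) : LaurentSeries (RN N))) := by
  have e : coeffMap (RN N).subtype (((Ycusp N γ)⁻¹ : (LaurentSeries (RN N))ˣ) : LaurentSeries (RN N)) =
      (((Units.map (coeffMap (RN N).subtype).toMonoidHom (Ycusp N γ))⁻¹ : (LaurentSeries ℂ)ˣ) :
        LaurentSeries ℂ) := by
    rw [← map_inv]
    rfl
  have e2 : (Units.map (coeffMap (RN N).subtype).toMonoidHom (Ycusp N γ))⁻¹ =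
      (∏ d ∈ N.divisors, cuspU N γ d ^ (-((d : ℤ) * ArithmeticFunction.moebius (N / d)))) *
        deltaN N ^ ((N.totient : ℤ)) := by
    rw [map_coeffMap_Ycusp, mul_inv, ← Finset.prod_inv_distrib, zpow_neg, inv_inv]
    congr 1
    exact Finset.prod_congr rfl fun d _ => (zpow_neg _ _).symm
  have e3 : (fun τ : ℍ => (yFun N (γ • τ))⁻¹) = fun τ =>
      (∏ d ∈ N.divisors, cuspG γ d τ ^ (-((d : ℤ) * ArithmeticFunction.moebius (N / d)))) *
        ModularForm.discriminant τ ^ ((N.totient : ℤ)) := by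
    funext τ
    rw [yFun_smul_eq, mul_inv, ← Finset.prod_inv_distrib, zpow_neg, inv_inv]
    congr 1
    exact Finset.prod_congr rfl fun d _ => (zpow_neg _ _).symm
  rw [e, e2, e3]
  exact hasTExp_cuspProd N γ _ _

/-- **P4c.** `τ ↦ j(d · γτ)` has the `t`-expansion `Jcusp N γ d`. -/
theorem hasTExp_jFun_smul (d : ℕ) (hd : d ∣ N) :
    HasTExp N (fun τ : ℍ => jFun (scaleH d (γ • τ))) (coeffMap (RN N).subtype (Jcusp N γ d)) := by
  have hpos : 0 < d := Nat.pos_of_ne_zero (ne_zero_of_dvd_ne_zero (NeZero.ne N) hd)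
  rw [Jcusp, coeffMap_substHom, coeffMap_jqModC, funext (jFun_scaleH_smul γ d hpos)]
  exact hasTExp_jFun.subst N γ d hd

end Main

/-! ## Holomorphy -/

theorem scaleH_one (τ : ℍ) : scaleH 1 τ = τ := by
  rw [scaleH, dif_pos Nat.one_pos]
  exact UpperHalfPlane.ext (by simp)

theorem mdiff_pow' {F : ℍ → ℂ} (hF : MDiff F) (n : ℕ) : MDiff (fun τ => F τ ^ n) := by
  induction n with
  | zero => simpa using (mdifferentiable_const : MDiff (fun _ : ℍ => (1 : ℂ)))
  | succ n ih =>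
    have : MDiff (fun τ => F τ ^ n * F τ) := ih.mul hF
    simpa [pow_succ] using this

theorem mdiff_zpow {F : ℍ → ℂ} (hF : MDiff F) (h0 : ∀ τ, F τ ≠ 0) (k : ℤ) :
    MDiff (fun τ => F τ ^ k) := by
  cases k with
  | ofNat n => simpa using mdiff_pow' hF n
  | negSucc n =>
    have := mdiff_pow' (mdiff_inv hF h0) (n + 1)
    simpa [zpow_negSucc, inv_pow] using this

theorem mdiff_prod {ι : Type*} (s : Finset ι) {F : ι → ℍ → ℂ} (h : ∀ i ∈ s, MDiff (F i)) :
    MDiff (fun τ => ∏ i ∈ s, F i τ) := by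
  classical
  induction s using Finset.induction_on with
  | empty => simpa using (mdifferentiable_const : MDiff (fun _ : ℍ => (1 : ℂ)))
  | insert i s hi ih =>
    have h1 : MDiff (fun τ => F i τ * ∏ j ∈ s, F j τ) :=
      (h i (Finset.mem_insert_self i s)).mul (ih fun j hj => h j (Finset.mem_insert_of_mem hj))
    simpa [Finset.prod_insert hi] using h1

theorem mdiff_discriminant_smul (γ : SL(2, ℤ)) :
    MDiff (fun τ : ℍ => ModularForm.discriminant (γ • τ)) := by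
  have h := mdiff_discriminant_scaleH_smul γ 1 Nat.one_pos
  simpa [scaleH_one] using h

theorem mdiff_yFun_smul (N : ℕ) [NeZero N] (γ : SL(2, ℤ)) :
    MDiff (fun τ : ℍ => yFun N (γ • τ)) := by
  unfold yFun
  refine MDifferentiable.mul (mdiff_prod _ fun d hd => ?_) ?_
  · exact mdiff_zpow (mdiff_discriminant_scaleH_smul γ d (Nat.pos_of_mem_divisors hd))
      (fun τ => ModularForm.discriminant_ne_zero _) _
  · exact mdiff_zpow (mdiff_discriminant_smul γ) (fun τ => ModularForm.discriminant_ne_zero _) _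

theorem yFun_ne_zero (N : ℕ) (τ : ℍ) : yFun N τ ≠ 0 := by
  unfold yFun
  refine mul_ne_zero (Finset.prod_ne_zero_iff.mpr fun d _ => ?_) ?_
  · exact zpow_ne_zero _ (ModularForm.discriminant_ne_zero _)
  · exact zpow_ne_zero _ (ModularForm.discriminant_ne_zero _)

theorem mdiff_yFun_inv_smul (N : ℕ) [NeZero N] (γ : SL(2, ℤ)) :
    MDiff (fun τ : ℍ => (yFun N (γ • τ))⁻¹) :=
  mdiff_inv (mdiff_yFun_smul N γ) fun τ => yFun_ne_zero N _

end Fermat.Agent.S28
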