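import Fermat.Agent.S28.AN.Triang

/-!
# S28, Part I, piece P6: descent of the coefficients (from `Triang.lean`)
-/

set_option autoImplicit false

noncomputable section

namespace Fermat.Agent.S28

open ModularCurve Polynomial

/-- **P6.** If `P(j(t^N))` has coefficients in a subring `R ⊆ ℂ`, then `P ∈ R[X]`
(induction on the degree; `j(t^N) = t^(-N) + …` has integer coefficients). -/
theorem descent_poly (N : ℕ) [NeZero N] (R : Subring ℂ) (P : Polynomial ℂ) (g : LaurentSeries R)
    (h : Polynomial.aeval (jt ℂ N) P = coeffMap R.subtype g) :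
    ∃ P' : Polynomial R, Polynomial.aeval (jt R N) P' = g := by
  obtain ⟨p', -, hp'⟩ :=
    exists_lift_of_coeffMap_eq_aeval_jt R.subtype N Subtype.val_injective P.natDegree P g le_rfl
      h.symm
  exact ⟨p', hp'.symm⟩

end Fermat.Agent.S28
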