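import Fermat.Agent.S28.AN.Defs
import Fermat.Agent.S28.Arith

/-!
# S28, Part I, piece P2: formal facts about the cusp expansions

* `Ycusp_base`  : for `γ ∈ Γ₀(N)` the expansion of `y ∘ γ` is `y(t^N)`.
* `Jcusp_base`  : for `γ ∈ Γ₀(N)` the expansion of `j(d · γτ)` is `j(t^(N d))`.
* `Ycusp_order` : for `γ ∉ Γ₀(N)` the expansion of `y ∘ γ` has `t`-order `-N φ(N)` and unit leading
  coefficient.
-/

set_option autoImplicit false

noncomputable section

namespace Fermat.Agent.S28

open ModularCurve UpperHalfPlane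
open scoped MatrixGroups

/-! ## Orders of Laurent series -/

section General

variable {R : Type*} [CommRing R]

/-- characterisation of the order of a Laurent series -/
theorem laurent_order_eq_of_coeff {x : LaurentSeries R} {m : ℤ} (h1 : x.coeff m ≠ 0)
    (h2 : ∀ n < m, x.coeff n = 0) : x.order = m := by
  refine le_antisymm (HahnSeries.order_le_of_coeff_ne_zero h1) ?_
  by_contra hlt
  rw [not_le] at hlt
  exact (HahnSeries.coeff_order_eq_zero.not.mpr (HahnSeries.ne_zero_of_coeff_ne_zero h1))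
    (h2 _ hlt)

theorem order_twistHom (c : Rˣ) (f : LaurentSeries R) : (twistHom c f).order = f.order := by
  by_cases hf : f = 0
  · simp [hf]
  · have h0 : f.coeff f.order ≠ 0 := HahnSeries.coeff_order_eq_zero.not.mpr hf
    refine laurent_order_eq_of_coeff ?_ ?_
    · rw [twistHom_coeff]
      exact fun h => h0 ((Units.mul_right_eq_zero _).mp h)
    · intro n hn
      rw [twistHom_coeff, HahnSeries.coeff_eq_zero_of_lt_order hn, mul_zero]

theorem twistHom_one (f : LaurentSeries R) : twistHom (1 : Rˣ) f = f := by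
  ext n
  simp

theorem order_qExpand (m : ℕ) [NeZero m] (f : LaurentSeries R) :
    (qExpand R m f).order = (m : ℤ) * f.order := by
  by_cases hf : f = 0
  · simp [hf]
  · have h0 : f.coeff f.order ≠ 0 := HahnSeries.coeff_order_eq_zero.not.mpr hf
    have hm : (0 : ℤ) < m := by exact_mod_cast Nat.pos_of_ne_zero (NeZero.ne m)
    refine laurent_order_eq_of_coeff ?_ ?_
    · rw [qExpand_coeff_mul]; exact h0
    · intro n hn
      by_cases hd : (m : ℤ) ∣ n
      · obtain ⟨k, rfl⟩ := hd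
        rw [qExpand_coeff_mul]
        exact HahnSeries.coeff_eq_zero_of_lt_order (lt_of_mul_lt_mul_left hn hm.le)
      · exact qExpand_coeff_of_not_dvd m f hd

theorem order_substHom (c : Rˣ) (m : ℕ) (hm : m ≠ 0) (f : LaurentSeries R) :
    (substHom c m f).order = (m : ℤ) * f.order := by
  haveI : NeZero m := ⟨hm⟩
  rw [substHom, RingHom.comp_apply, expandHom_eq, order_qExpand, order_twistHom]

theorem substHom_one (m : ℕ) [NeZero m] (f : LaurentSeries R) :
    substHom (1 : Rˣ) m f = qExpand R m f := by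
  rw [substHom, RingHom.comp_apply, expandHom_eq, twistHom_one]

/-- the formal `Δ` has order `1` -/
theorem order_deltaUnit [Nontrivial R] : (deltaUnit R : LaurentSeries R).order = 1 := by
  have hval : (deltaUnit R : LaurentSeries R) = HahnSeries.single (1 : ℤ) (1 : R) *
      HahnSeries.ofPowerSeries ℤ R (dedekindEtaUnit.map (Int.castRingHom R)) := rfl
  have hc : ∀ n : ℤ, (deltaUnit R : LaurentSeries R).coeff (n + 1) =
      (HahnSeries.ofPowerSeries ℤ R (dedekindEtaUnit.map (Int.castRingHom R))).coeff n := by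
    intro n
    rw [hval, HahnSeries.coeff_single_mul_add, one_mul]
  refine laurent_order_eq_of_coeff ?_ ?_
  · have h := hc 0
    rw [zero_add] at h
    rw [h]
    have h2 := HahnSeries.ofPowerSeries_apply_coeff (Γ := ℤ)
      (dedekindEtaUnit.map (Int.castRingHom R)) 0
    rw [Nat.cast_zero] at h2
    rw [h2, PowerSeries.coeff_map, PowerSeries.coeff_zero_eq_constantCoeff,
      constantCoeff_dedekindEtaUnit]
    simp
  · intro n hn
    have h := hc (n - 1)
    rw [sub_add_cancel] at h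
    rw [h]
    exact ofPowerSeries_coeff_of_neg _ (by omega)

variable [IsDomain R]

/-- the order as a monoid homomorphism on the units of `R((t))` -/
def unitOrderHom : (LaurentSeries R)ˣ →* Multiplicative ℤ where
  toFun u := Multiplicative.ofAdd (u : LaurentSeries R).order
  map_one' := by
    rw [Units.val_one, HahnSeries.order_one]; rfl
  map_mul' u v := by
    rw [Units.val_mul, HahnSeries.order_mul u.ne_zero v.ne_zero]; rfl

theorem order_units_mul (u v : (LaurentSeries R)ˣ) :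
    ((u * v : (LaurentSeries R)ˣ) : LaurentSeries R).order =
      (u : LaurentSeries R).order + (v : LaurentSeries R).order := by
  rw [Units.val_mul, HahnSeries.order_mul u.ne_zero v.ne_zero]

theorem order_units_zpow (u : (LaurentSeries R)ˣ) (n : ℤ) :
    ((u ^ n : (LaurentSeries R)ˣ) : LaurentSeries R).order = n * (u : LaurentSeries R).order := by
  have h := congrArg Multiplicative.toAdd (map_zpow (unitOrderHom (R := R)) u n)
  rw [toAdd_zpow, smul_eq_mul] at h
  exact h

theorem order_units_prod {ι : Type*} (s : Finset ι) (f : ι → (LaurentSeries R)ˣ) :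
    ((∏ i ∈ s, f i : (LaurentSeries R)ˣ) : LaurentSeries R).order =
      ∑ i ∈ s, (f i : LaurentSeries R).order := by
  have h := congrArg Multiplicative.toAdd (map_prod (unitOrderHom (R := R)) f s)
  rw [toAdd_prod] at h
  exact h

/-- the leading coefficient of a unit of `R((t))` (`R` a domain) is a unit -/
theorem isUnit_leadingCoeff_of_unit (u : (LaurentSeries R)ˣ) :
    IsUnit (u : LaurentSeries R).leadingCoeff := by
  refine IsUnit.of_mul_eq_one ((u⁻¹ : (LaurentSeries R)ˣ) : LaurentSeries R).leadingCoeff ?_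
  rw [← HahnSeries.leadingCoeff_mul, Units.mul_inv, HahnSeries.leadingCoeff_one]

end General

/-! ## Cusp data -/

section Cusp

variable (N : ℕ) [NeZero N] (γ : SL(2, ℤ))

theorem cuspA_pos {d : ℕ} (hd : 0 < d) : 0 < cuspA γ d :=
  Nat.gcd_pos_of_pos_left _ hd

theorem cuspA_dvd (d : ℕ) : cuspA γ d ∣ d := Nat.gcd_dvd_left _ _

theorem cuspA_mul_cuspDelta (d : ℕ) : cuspA γ d * cuspDelta γ d = d :=
  Nat.mul_div_cancel' (cuspA_dvd γ d)

theorem cuspDelta_dvd_self (d : ℕ) : cuspDelta γ d ∣ d :=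
  Dvd.intro_left _ (cuspA_mul_cuspDelta γ d)

theorem cuspDelta_pos {d : ℕ} (hd : 0 < d) : 0 < cuspDelta γ d :=
  Nat.pos_of_dvd_of_pos (cuspDelta_dvd_self γ d) hd

theorem cuspM_pos {d : ℕ} (hd : d ∣ N) : 0 < cuspM N γ d := by
  have hN : 0 < N := Nat.pos_of_ne_zero (NeZero.ne N)
  have hd0 : 0 < d := Nat.pos_of_dvd_of_pos hd hN
  have h1 : cuspDelta γ d ∣ N := (cuspDelta_dvd_self γ d).trans hd
  exact Nat.mul_pos (Nat.div_pos (Nat.le_of_dvd hN h1) (cuspDelta_pos γ hd0)) (cuspA_pos γ hd0)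

omit [NeZero N] in
theorem mul_cuspM {d : ℕ} (hd : d ∣ N) : d * cuspM N γ d = N * cuspA γ d ^ 2 := by
  have h1 : cuspDelta γ d ∣ N := (cuspDelta_dvd_self γ d).trans hd
  have h2 : cuspDelta γ d * (N / cuspDelta γ d) = N := Nat.mul_div_cancel' h1
  calc d * cuspM N γ d = (cuspA γ d * cuspDelta γ d) * (N / cuspDelta γ d * cuspA γ d) := by
        rw [cuspA_mul_cuspDelta, cuspM]
    _ = (cuspDelta γ d * (N / cuspDelta γ d)) * cuspA γ d ^ 2 := by ring
    _ = N * cuspA γ d ^ 2 := by rw [h2]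

theorem order_DeltaCusp {d : ℕ} (hd : d ∣ N) :
    (DeltaCusp N γ d : LaurentSeries (RN N)).order = (cuspM N γ d : ℤ) := by
  rw [DeltaCusp, order_units_mul]
  have h1 : ((Units.map (HahnSeries.C : RN N →+* LaurentSeries (RN N)).toMonoidHom
      (invNatU N (cuspDelta γ d) ^ 12) : (LaurentSeries (RN N))ˣ) : LaurentSeries (RN N)).order = 0 := by
    rw [Units.coe_map]
    exact HahnSeries.order_C
  have h2 : ((Units.map (substHom (cuspZ N γ d) (cuspM N γ d)).toMonoidHom (deltaUnit (RN N)) :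
      (LaurentSeries (RN N))ˣ) : LaurentSeries (RN N)).order = (cuspM N γ d : ℤ) := by
    rw [Units.coe_map]
    show (substHom (cuspZ N γ d) (cuspM N γ d) (deltaUnit (RN N) : LaurentSeries (RN N))).order = _
    rw [order_substHom _ _ (cuspM_pos N γ hd).ne', order_deltaUnit, mul_one]
  rw [h1, h2, zero_add]

/-- **P2c.** Away from the cusp `∞` (`γ ∉ Γ₀(N)`) the expansion of `y ∘ γ` has `t`-order exactly
`-N φ(N)` and unit leading coefficient. -/
theorem Ycusp_order (hγ : ¬ (N : ℤ) ∣ γ 1 0) :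
    (Ycusp N γ : LaurentSeries (RN N)).order = -((N : ℤ) * (N.totient : ℤ)) ∧
      IsUnit (Ycusp N γ : LaurentSeries (RN N)).leadingCoeff := by
  refine ⟨?_, isUnit_leadingCoeff_of_unit _⟩
  have hN : 0 < N := Nat.pos_of_ne_zero (NeZero.ne N)
  have hγ' : ¬ N ∣ (γ 1 0).natAbs := fun h => hγ (Int.natCast_dvd.mpr h)
  rw [Ycusp, order_units_mul, order_units_prod, order_units_zpow]
  have h1 : ((Units.map (qExpand (RN N) N).toMonoidHom (deltaUnit (RN N)) :
      (LaurentSeries (RN N))ˣ) : LaurentSeries (RN N)).order = (N : ℤ) := by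
    rw [Units.coe_map]
    show (qExpand (RN N) N (deltaUnit (RN N) : LaurentSeries (RN N))).order = _
    rw [order_qExpand, order_deltaUnit, mul_one]
  have h2 : ∑ d ∈ N.divisors, ((DeltaCusp N γ d ^ ((d : ℤ) * ArithmeticFunction.moebius (N / d)) :
      (LaurentSeries (RN N))ˣ) : LaurentSeries (RN N)).order = 0 := by
    have h3 : ∀ d ∈ N.divisors,
        ((DeltaCusp N γ d ^ ((d : ℤ) * ArithmeticFunction.moebius (N / d)) :
          (LaurentSeries (RN N))ˣ) : LaurentSeries (RN N)).order =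
        (N : ℤ) * ((ArithmeticFunction.moebius (N / d) : ℤ) *
          ((Nat.gcd d (γ 1 0).natAbs : ℕ) : ℤ) ^ 2) := by
      intro d hd
      have hdN : d ∣ N := Nat.dvd_of_mem_divisors hd
      rw [order_units_zpow, order_DeltaCusp N γ hdN]
      have h4 : (d : ℤ) * (cuspM N γ d : ℤ) = (N : ℤ) * ((cuspA γ d : ℕ) : ℤ) ^ 2 := by
        exact_mod_cast mul_cuspM N γ hdN
      have h5 : cuspA γ d = Nat.gcd d (γ 1 0).natAbs := rfl
      rw [← h5]
      linear_combination (ArithmeticFunction.moebius (N / d) : ℤ) * h4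
    rw [Finset.sum_congr rfl h3, ← Finset.mul_sum,
      sum_moebius_mul_gcd_sq_of_not_dvd _ N hN hγ', mul_zero]
  rw [h1, h2]
  ring

theorem zetaU_zpow_self : zetaU N ^ (N : ℤ) = 1 := by
  rw [zpow_natCast]
  ext
  show zetaC N ^ N = 1
  exact zetaC_pow_self N

theorem invNatU_one : invNatU N 1 = 1 := by
  rw [invNatU, dif_pos (one_dvd N)]
  ext
  show ((N / 1 : ℕ) : ℂ) * (N : ℂ)⁻¹ = 1
  rw [Nat.div_one]
  exact mul_inv_cancel₀ (Nat.cast_ne_zero.mpr (NeZero.ne N))

section Base

variable (hγ : (N : ℤ) ∣ γ 1 0)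

include hγ

omit [NeZero N] in
theorem cuspA_of_mem {d : ℕ} (hd : d ∣ N) : cuspA γ d = d := by
  have h : N ∣ (γ 1 0).natAbs := Int.natCast_dvd.mp hγ
  exact Nat.gcd_eq_left (hd.trans h)

theorem cuspDelta_of_mem {d : ℕ} (hd : d ∣ N) : cuspDelta γ d = 1 := by
  have hd0 : 0 < d := Nat.pos_of_dvd_of_pos hd (Nat.pos_of_ne_zero (NeZero.ne N))
  rw [cuspDelta, cuspA_of_mem N γ hγ hd, Nat.div_self hd0]

theorem cuspM_of_mem {d : ℕ} (hd : d ∣ N) : cuspM N γ d = N * d := by
  rw [cuspM, cuspDelta_of_mem N γ hγ hd, cuspA_of_mem N γ hγ hd, Nat.div_one]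

theorem cuspZ_of_mem {d : ℕ} (hd : d ∣ N) : cuspZ N γ d = 1 := by
  rw [cuspZ, cuspDelta_of_mem N γ hγ hd, Nat.div_one, zpow_mul, zetaU_zpow_self, one_zpow]

theorem substHom_cusp_of_mem {d : ℕ} [NeZero d] (hd : d ∣ N) (f : LaurentSeries (RN N)) :
    substHom (cuspZ N γ d) (cuspM N γ d) f = qExpand (RN N) N (qExpand (RN N) d f) := by
  rw [cuspZ_of_mem N γ hγ hd, cuspM_of_mem N γ hγ hd, substHom_one, qExpand_qExpand]

/-- **P2b.** At the cusp `∞` (`γ ∈ Γ₀(N)`) the expansion of `j(d · γτ)` is `j(t^(N d))`. -/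
theorem Jcusp_base (d : ℕ) [NeZero d] (hd : d ∣ N) :
    Jcusp N γ d = qExpand (RN N) N (qExpand (RN N) d (jqModC (RN N))) := by
  rw [Jcusp, substHom_cusp_of_mem N γ hγ hd]

theorem DeltaCusp_of_mem {d : ℕ} (hd : d ∈ N.divisors) :
    DeltaCusp N γ d = Units.map (qExpand (RN N) N).toMonoidHom (deltaUnitAt' (RN N) d) := by
  have hdN : d ∣ N := Nat.dvd_of_mem_divisors hd
  have hd0 : d ≠ 0 := (Nat.pos_of_dvd_of_pos hdN (Nat.pos_of_ne_zero (NeZero.ne N))).ne'
  haveI : NeZero d := ⟨hd0⟩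
  ext1
  rw [DeltaCusp, Units.val_mul, Units.coe_map, Units.coe_map, Units.coe_map,
    cuspDelta_of_mem N γ hγ hdN, invNatU_one, one_pow, Units.val_one, map_one, one_mul,
    deltaUnitAt', dif_neg hd0, deltaUnitAt, Units.coe_map]
  exact substHom_cusp_of_mem N γ hγ hdN _

/-- **P2a.** At the cusp `∞` (`γ ∈ Γ₀(N)`) the expansion of `y ∘ γ` is `y(t^N)`. -/
theorem Ycusp_base :
    (Ycusp N γ : LaurentSeries (RN N)) = qExpand (RN N) N (yUnit (RN N) N) := by
  have h : Ycusp N γ = Units.map (qExpand (RN N) N).toMonoidHom (yUnit (RN N) N) := by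
    rw [Ycusp, yUnit, map_mul, map_prod, map_zpow]
    congr 1
    refine Finset.prod_congr rfl fun d hd => ?_
    rw [DeltaCusp_of_mem N γ hγ hd, map_zpow]
  rw [h, Units.coe_map]
  rfl

end Base

end Cusp

end Fermat.Agent.S28
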