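import Mathlib

/-!
# S24 helper (Mathlib-only): level-one invariant holomorphic functions are polynomials in `j`

`jFn τ = E₄ τ ^ 3 / Δ τ` is the analytic `j`-function.  Main result:

`exists_polynomial_of_invariant` : if `f : ℍ → ℂ` is holomorphic, `SL(2,ℤ)`-invariant and
`Δ ^ m * f` is bounded at `i∞`, then `f = p ∘ jFn` for a polynomial `p` of degree `≤ m`.
-/

set_option autoImplicit false

open UpperHalfPlane ModularForm SlashInvariantForm SlashInvariantFormClass ModularFormClass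
  CuspFormClass MatrixGroups OnePoint Filter EisensteinSeries Asymptotics

open scoped Topology Manifold

namespace Fermat.Agent.S28.InvPolyJ

local notation "Δ" => ModularForm.discriminant

/-- Build a level-one modular form from a holomorphic, slash-invariant function bounded at `i∞`. -/
noncomputable def mkModularForm (k : ℤ) (g : ℍ → ℂ) (hg : MDiff g)
    (hinv : ∀ γ : SL(2, ℤ), g ∣[k] γ = g) (hbd : IsBoundedAtImInfty g) : ModularForm 𝒮ℒ k where
  toFun := g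
  slash_action_eq' := fun _ ⟨γ, hγ⟩ ↦ hγ ▸ hinv γ
  holo' := hg
  bdd_at_cusps' {c} hc := by
    rw [isBoundedAt_iff_forall_SL2Z hc]
    intro γ _
    rw [hinv γ]
    exact hbd

@[simp] lemma mkModularForm_apply (k : ℤ) (g : ℍ → ℂ) (hg : MDiff g)
    (hinv : ∀ γ : SL(2, ℤ), g ∣[k] γ = g) (hbd : IsBoundedAtImInfty g) (τ : ℍ) :
    mkModularForm k g hg hinv hbd τ = g τ := rfl

lemma coe_mkModularForm (k : ℤ) (g : ℍ → ℂ) (hg : MDiff g)
    (hinv : ∀ γ : SL(2, ℤ), g ∣[k] γ = g) (hbd : IsBoundedAtImInfty g) :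
    ⇑(mkModularForm k g hg hinv hbd) = g := rfl

lemma slash_zero_apply (f : ℍ → ℂ) (γ : SL(2, ℤ)) (τ : ℍ) : (f ∣[(0 : ℤ)] γ) τ = f (γ • τ) := by
  simp [SL_slash_apply]

lemma slash_zero_eq_of_invariant {f : ℍ → ℂ} (h : ∀ (γ : SL(2, ℤ)) (τ : ℍ), f (γ • τ) = f τ)
    (γ : SL(2, ℤ)) : f ∣[(0 : ℤ)] γ = f := by
  funext τ
  rw [slash_zero_apply, h]

lemma invariant_of_slash_zero_eq {f : ℍ → ℂ} (h : ∀ γ : SL(2, ℤ), f ∣[(0 : ℤ)] γ = f)
    (γ : SL(2, ℤ)) (τ : ℍ) : f (γ • τ) = f τ := by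
  rw [← slash_zero_apply f γ τ, h]

/-- The discriminant as a level one modular form of weight `12`. -/
noncomputable def deltaMF : ModularForm 𝒮ℒ 12 := CuspForm.toModularFormₗ CuspForm.discriminant

lemma coe_deltaMF : ⇑deltaMF = Δ := rfl

/-- The analytic `j`-function `E₄ ^ 3 / Δ`. -/
noncomputable def jFn (τ : ℍ) : ℂ := E₄ τ ^ 3 / Δ τ

lemma jFn_eq : jFn = ⇑(E₄.pow 3) / ⇑deltaMF := by
  funext τ
  have h := congrFun (ModularForm.coe_pow E₄ 3) τ
  simp only [Pi.pow_apply] at h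
  simp [jFn, coe_deltaMF, h]

lemma jFn_mdiff : MDiff jFn := by
  rw [jFn_eq]
  exact (E₄.pow 3).holo'.div deltaMF.holo' discriminant_ne_zero

lemma jFn_slash (γ : SL(2, ℤ)) : jFn ∣[(0 : ℤ)] γ = jFn := by
  have h1 : (⇑(E₄.pow 3)) ∣[((3 : ℕ) : ℤ) * 4] γ = ⇑(E₄.pow 3) :=
    (E₄.pow 3).slash_action_eq' _ ⟨γ, rfl⟩
  have h2 : (⇑deltaMF) ∣[(12 : ℤ)] γ = ⇑deltaMF := deltaMF.slash_action_eq' _ ⟨γ, rfl⟩
  have h3 := div_slash_SL2 (((3 : ℕ) : ℤ) * 4) 12 γ (⇑(E₄.pow 3)) (⇑deltaMF)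
  rw [h1, h2] at h3
  rw [jFn_eq]
  have h4 : (((3 : ℕ) : ℤ) * 4 - 12) = 0 := by norm_num
  rw [h4] at h3
  exact h3

lemma jFn_smul (γ : SL(2, ℤ)) (τ : ℍ) : jFn (γ • τ) = jFn τ :=
  invariant_of_slash_zero_eq jFn_slash γ τ

lemma delta_pow_mul_slash (n : ℕ) {f : ℍ → ℂ} (hf : ∀ γ : SL(2, ℤ), f ∣[(0 : ℤ)] γ = f)
    (γ : SL(2, ℤ)) :
    (fun τ ↦ Δ τ ^ n * f τ) ∣[(12 * (n : ℤ))] γ = fun τ ↦ Δ τ ^ n * f τ := by
  have h1 : (⇑(deltaMF.pow n)) ∣[((n : ℕ) : ℤ) * 12] γ = ⇑(deltaMF.pow n) :=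
    (deltaMF.pow n).slash_action_eq' _ ⟨γ, rfl⟩
  have h3 := mul_slash_SL2 (((n : ℕ) : ℤ) * 12) 0 γ (⇑(deltaMF.pow n)) f
  rw [h1, hf γ] at h3
  have h4 : (((n : ℕ) : ℤ) * 12 + 0) = 12 * (n : ℤ) := by ring
  rw [h4] at h3
  have h5 : (⇑(deltaMF.pow n) * f) = fun τ ↦ Δ τ ^ n * f τ := by
    funext τ
    simp [coe_deltaMF]
  rw [h5] at h3
  exact h3

lemma mdiff_delta_pow_mul (n : ℕ) {f : ℍ → ℂ} (hf : MDiff f) :
    MDiff (fun τ ↦ Δ τ ^ n * f τ) := by
  have h5 : (⇑(deltaMF.pow n) * f) = fun τ ↦ Δ τ ^ n * f τ := by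
    funext τ
    simp [coe_deltaMF]
  rw [← h5]
  exact (deltaMF.pow n).holo'.mul hf

lemma qExpansion_E4_pow_coeff_zero (n : ℕ) :
    (qExpansion 1 ⇑(E₄.pow n)).coeff 0 = 1 := by
  rw [ModularForm.qExpansion_pow one_pos one_mem_strictPeriods_SL]
  simp [PowerSeries.coeff_zero_eq_constantCoeff, map_pow, ← PowerSeries.coeff_zero_eq_constantCoeff_apply,
    E_qExpansion_coeff_zero (k := 4) (by norm_num) ⟨2, rfl⟩]

/-- Slash-invariant form of the main result. -/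
theorem exists_polynomial_of_slash_invariant (m : ℕ) :
    ∀ f : ℍ → ℂ, MDiff f → (∀ γ : SL(2, ℤ), f ∣[(0 : ℤ)] γ = f) →
      IsBoundedAtImInfty (fun τ ↦ Δ τ ^ m * f τ) →
      ∃ p : Polynomial ℂ, p.natDegree ≤ m ∧ ∀ τ, f τ = p.eval (jFn τ) := by
  induction m with
  | zero =>
    intro f hf hinv hbd
    have hbd' : IsBoundedAtImInfty f := by simpa using hbd
    obtain ⟨c, hc⟩ := levelOne_weight_zero_const (mkModularForm 0 f hf hinv hbd')
    refine ⟨Polynomial.C c, by simp, fun τ ↦ ?_⟩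
    have := congrFun hc τ
    simpa using this
  | succ m ih =>
    intro f hf hinv hbd
    have hk : ((3 * (m + 1) : ℕ) : ℤ) * 4 = 12 * ((m + 1 : ℕ) : ℤ) := by push_cast; ring
    let G : ModularForm 𝒮ℒ (12 * ((m + 1 : ℕ) : ℤ)) :=
      mkModularForm _ _ (mdiff_delta_pow_mul (m + 1) hf) (delta_pow_mul_slash (m + 1) hinv) hbd
    let EP : ModularForm 𝒮ℒ (12 * ((m + 1 : ℕ) : ℤ)) := ModularForm.mcast hk (E₄.pow (3 * (m + 1)))
    have hEP0 : (qExpansion 1 EP).coeff 0 = 1 := qExpansion_E4_pow_coeff_zero _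
    have hcusp0 := (isCuspForm_iff_coeffZero_eq_zero _).mp (sub_smul_isCuspForm G EP hEP0)
    obtain ⟨c, hc⟩ : ∃ c : ℂ, c = (qExpansion 1 G).coeff 0 := ⟨_, rfl⟩
    rw [← hc] at hcusp0
    have hcusp : (qExpansion 1 (G - c • EP)).coeff 0 = 0 := hcusp0
    let H : ModularForm 𝒮ℒ (12 * ((m + 1 : ℕ) : ℤ) - 12) :=
      CuspForm.discriminantEquiv (toCuspForm (G - c • EP) hcusp)
    have hH : ∀ τ, H τ = (Δ τ ^ (m + 1) * f τ - c * E₄ τ ^ (3 * (m + 1))) / Δ τ := by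
      intro τ
      have h := congrFun (ModularForm.coe_pow E₄ (3 * (m + 1))) τ
      simp only [Pi.pow_apply] at h
      show ((G - c • EP) τ) / Δ τ = _
      congr 1
      show G τ - c • EP τ = _
      rw [smul_eq_mul]
      congr 1
      rw [← h]
      rfl
    have key : ∀ τ, Δ τ ^ m * (f τ - c * jFn τ ^ (m + 1)) = H τ := by
      intro τ
      have hΔ := discriminant_ne_zero τ
      rw [hH, jFn, div_pow, ← pow_mul, eq_div_iff hΔ, pow_succ (Δ τ) m]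
      field_simp
    have hf' : MDiff (fun τ ↦ f τ - c * jFn τ ^ (m + 1)) :=
      hf.sub (mdifferentiable_const.mul (jFn_mdiff.pow (m + 1)))
    have hinv' : ∀ γ : SL(2, ℤ), (fun τ ↦ f τ - c * jFn τ ^ (m + 1)) ∣[(0 : ℤ)] γ
        = fun τ ↦ f τ - c * jFn τ ^ (m + 1) := by
      intro γ
      apply slash_zero_eq_of_invariant
      intro γ τ
      simp only [jFn_smul, invariant_of_slash_zero_eq hinv γ τ]
    have hbd' : IsBoundedAtImInfty (fun τ ↦ Δ τ ^ m * (f τ - c * jFn τ ^ (m + 1))) := by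
      have : (fun τ ↦ Δ τ ^ m * (f τ - c * jFn τ ^ (m + 1))) = ⇑H := funext key
      rw [this]
      exact ModularFormClass.bdd_at_infty H
    obtain ⟨p', hp', hp'e⟩ := ih _ hf' hinv' hbd'
    refine ⟨p' + Polynomial.C c * Polynomial.X ^ (m + 1), ?_, fun τ ↦ ?_⟩
    · exact Polynomial.natDegree_add_le_of_degree_le (hp'.trans (Nat.le_succ m))
        (Polynomial.natDegree_C_mul_X_pow_le c (m + 1))
    · have := hp'e τ
      simp only [Polynomial.eval_add, Polynomial.eval_mul, Polynomial.eval_C, Polynomial.eval_pow,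
        Polynomial.eval_X, ← this]
      ring

/-- **Invariant holomorphic functions are polynomials in `j`.**  If `f : ℍ → ℂ` is holomorphic,
invariant under `SL(2,ℤ)` and `Δ ^ m * f` is bounded at `i∞`, then `f = p ∘ jFn` for a polynomial
`p` with `natDegree p ≤ m`. -/
theorem exists_polynomial_of_invariant {f : ℍ → ℂ} (hf : MDiff f)
    (hinv : ∀ (γ : SL(2, ℤ)) (τ : ℍ), f (γ • τ) = f τ) (m : ℕ)
    (hbd : IsBoundedAtImInfty (fun τ ↦ Δ τ ^ m * f τ)) :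
    ∃ p : Polynomial ℂ, p.natDegree ≤ m ∧ ∀ τ, f τ = p.eval (jFn τ) :=
  exists_polynomial_of_slash_invariant m f hf (slash_zero_eq_of_invariant hinv) hbd

/-- Version with invariance only under the generators `S` and `T`. -/
theorem exists_polynomial_of_invariant_S_T {f : ℍ → ℂ} (hf : MDiff f)
    (hS : ∀ τ : ℍ, f (ModularGroup.S • τ) = f τ) (hT : ∀ τ : ℍ, f (ModularGroup.T • τ) = f τ)
    (m : ℕ) (hbd : IsBoundedAtImInfty (fun τ ↦ Δ τ ^ m * f τ)) :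
    ∃ p : Polynomial ℂ, p.natDegree ≤ m ∧ ∀ τ, f τ = p.eval (jFn τ) := by
  refine exists_polynomial_of_slash_invariant m f hf ?_ hbd
  refine slash_action_generators_SL2Z ?_ ?_
  · funext τ
    rw [slash_zero_apply, hS]
  · funext τ
    rw [slash_zero_apply, hT]

/-- `Δ` decays like `exp (-2π Im τ)` at `i∞`. -/
lemma discriminant_isBigO_exp :
    (Δ : ℍ → ℂ) =O[atImInfty] fun τ ↦ Real.exp (-2 * Real.pi * τ.im) := by
  have h := CuspFormClass.exp_decay_atImInfty (CuspForm.discriminant) one_pos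
    one_mem_strictPeriods_SL
  simpa using h

/-- Growth version: if `f = O(exp (2π m Im τ))` at `i∞` then `Δ ^ m * f` is bounded at `i∞`. -/
lemma isBoundedAtImInfty_delta_pow_mul {f : ℍ → ℂ} (m : ℕ)
    (hgr : f =O[atImInfty] fun τ ↦ Real.exp (2 * Real.pi * m * τ.im)) :
    IsBoundedAtImInfty (fun τ ↦ Δ τ ^ m * f τ) := by
  have h1 : (fun τ : ℍ ↦ Δ τ ^ m) =O[atImInfty]
      fun τ ↦ (Real.exp (-2 * Real.pi * τ.im)) ^ m := discriminant_isBigO_exp.pow m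
  have h2 := h1.mul hgr
  rw [IsBoundedAtImInfty, BoundedAtFilter]
  refine h2.trans (Asymptotics.isBigO_of_le _ fun τ ↦ ?_)
  rw [← Real.exp_nat_mul, ← Real.exp_add]
  have : (m : ℝ) * (-2 * Real.pi * τ.im) + 2 * Real.pi * m * τ.im = 0 := by ring
  rw [this]
  simp

/-- Growth version of `exists_polynomial_of_invariant`. -/
theorem exists_polynomial_of_invariant_of_isBigO {f : ℍ → ℂ} (hf : MDiff f)
    (hinv : ∀ (γ : SL(2, ℤ)) (τ : ℍ), f (γ • τ) = f τ) (m : ℕ)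
    (hgr : f =O[atImInfty] fun τ ↦ Real.exp (2 * Real.pi * m * τ.im)) :
    ∃ p : Polynomial ℂ, p.natDegree ≤ m ∧ ∀ τ, f τ = p.eval (jFn τ) :=
  exists_polynomial_of_invariant hf hinv m (isBoundedAtImInfty_delta_pow_mul m hgr)

/-- Moderate-growth version (hypothesis in the shape of the skeleton's `ModerateGrowth`),
with `j` written out as `E₄ ^ 3 / Δ`. -/
theorem exists_polynomial_of_invariant_of_moderateGrowth {f : ℍ → ℂ} (hf : MDiff f)
    (hinv : ∀ (γ : SL(2, ℤ)) (τ : ℍ), f (γ • τ) = f τ)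
    (hg : ∃ C A M : ℝ, ∀ τ : ℍ, A ≤ τ.im → ‖f τ‖ ≤ C * Real.exp (M * τ.im)) :
    ∃ p : Polynomial ℂ, ∀ τ : ℍ, f τ = p.eval (ModularForm.E₄ τ ^ 3 / ModularForm.discriminant τ) := by
  obtain ⟨C, A, M, h⟩ := hg
  obtain ⟨m, hm⟩ := exists_nat_ge (M / (2 * Real.pi))
  have hM : M ≤ 2 * Real.pi * m := by
    have hpi : (0 : ℝ) < 2 * Real.pi := by positivity
    have := (div_le_iff₀ hpi).mp hm
    linarith
  have hgr : f =O[atImInfty] fun τ ↦ Real.exp (2 * Real.pi * m * τ.im) := by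
    refine Asymptotics.IsBigO.of_bound |C| ?_
    have hmem : {τ : ℍ | A ≤ τ.im} ∈ atImInfty := by
      rw [atImInfty_mem]
      exact ⟨A, fun τ hτ ↦ hτ⟩
    filter_upwards [hmem] with τ hτ
    have h1 := h τ hτ
    have h2 : Real.exp (M * τ.im) ≤ Real.exp (2 * Real.pi * m * τ.im) :=
      Real.exp_le_exp.mpr (mul_le_mul_of_nonneg_right hM τ.im_pos.le)
    calc ‖f τ‖ ≤ C * Real.exp (M * τ.im) := h1
      _ ≤ |C| * Real.exp (M * τ.im) :=
          mul_le_mul_of_nonneg_right (le_abs_self C) (Real.exp_pos _).le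
      _ ≤ |C| * Real.exp (2 * Real.pi * m * τ.im) :=
          mul_le_mul_of_nonneg_left h2 (abs_nonneg C)
      _ = |C| * ‖Real.exp (2 * Real.pi * m * τ.im)‖ := by
          rw [Real.norm_of_nonneg (Real.exp_pos _).le]
  obtain ⟨p, -, hp⟩ := exists_polynomial_of_invariant_of_isBigO hf hinv m hgr
  exact ⟨p, hp⟩

end Fermat.Agent.S28.InvPolyJ
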