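import Fermat.Agent.S28.Defs

/-!
# S28, Part I helper: triangularity

If a Laurent series `Z` with coefficients in a subring `R ⊆ S` (more generally along an injective
ring hom `f : R →+* S`) is, over `S`, a polynomial in `j(t^N)`, then that polynomial already has
coefficients in `R` (because `j(t^N) = t^(-N) + …` has leading coefficient `1`).

Main statements:
* `coeffMap_aeval_jt` : `coeffMap f (aeval (jt R N) q) = aeval (jt S N) (q.map f)`;
* `exists_lift_of_coeffMap_eq_aeval_jt` : the triangularity lemma;
* `mem_lifts_aeval_jt_of_coeffMap` : a polynomial `P` over `LaurentSeries R` whose image over `S`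
  lies in `lifts (aeval (jt S N))` lies in `lifts (aeval (jt R N))` (the form needed for the
  `ANData` fields `charpoly_Y`, `charpoly_Yinv`, `lagrange`).
-/

set_option autoImplicit false

noncomputable section

namespace Fermat.Agent.S28

open ModularCurve Polynomial

section

variable {S : Type*} [CommRing S] (N : ℕ) [NeZero N]

theorem jt_pow (i : ℕ) : jt S N ^ i = qExpand S N (jqModC S ^ i) := by
  rw [jt, map_pow]

theorem coeff_jt_pow_of_lt (i : ℕ) {m : ℤ} (hm : m < -((N : ℤ) * i)) :
    (jt S N ^ i).coeff m = 0 := by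
  rw [jt_pow]
  by_cases hdvd : (N : ℤ) ∣ m
  · obtain ⟨m', rfl⟩ := hdvd
    rw [qExpand_coeff_mul]
    apply coeff_jqModC_pow_of_lt
    have hN : (0 : ℤ) < N := by exact_mod_cast Nat.pos_of_ne_zero (NeZero.ne N)
    have : (N : ℤ) * m' < (N : ℤ) * (-(i : ℤ)) := by rw [mul_neg]; exact hm
    exact lt_of_mul_lt_mul_left this hN.le
  · exact qExpand_coeff_of_not_dvd N _ hdvd

theorem coeff_jt_pow_self (i : ℕ) : (jt S N ^ i).coeff (-((N : ℤ) * i)) = 1 := by
  rw [jt_pow, ← mul_neg, qExpand_coeff_mul]
  exact coeff_jqModC_pow_self S i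

theorem algebraMap_eq_C (r : S) : algebraMap S (LaurentSeries S) r = HahnSeries.C r := by
  have h1 : algebraMap S (PowerSeries S) r = PowerSeries.C r := by
    simp
  rw [HahnSeries.algebraMap_apply', h1, HahnSeries.ofPowerSeries_C]

theorem coeff_C_mul_eq (r : S) (x : LaurentSeries S) (k : ℤ) :
    (HahnSeries.C r * x).coeff k = r * x.coeff k := by
  rw [HahnSeries.C_mul_eq_smul, HahnSeries.coeff_smul, smul_eq_mul]

theorem aeval_eq_sum_C_mul (x : LaurentSeries S) (p : S[X]) :
    Polynomial.aeval x p = ∑ i ∈ Finset.range (p.natDegree + 1), HahnSeries.C (p.coeff i) * x ^ i := by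
  rw [Polynomial.aeval_def, Polynomial.eval₂_eq_sum_range]
  refine Finset.sum_congr rfl fun i _ => ?_
  rw [algebraMap_eq_C]

/-- The lowest coefficient of a polynomial in `j(t^N)` is its leading coefficient. -/
theorem coeff_aeval_jt_natDegree (p : S[X]) :
    (Polynomial.aeval (jt S N) p).coeff (-((N : ℤ) * p.natDegree)) = p.leadingCoeff := by
  rw [aeval_eq_sum_C_mul, ← HahnSeries.coeff.addMonoidHom_apply, map_sum,
    Finset.sum_range_succ]
  simp only [HahnSeries.coeff.addMonoidHom_apply, coeff_C_mul_eq]
  rw [coeff_jt_pow_self, mul_one, Finset.sum_eq_zero, zero_add, Polynomial.coeff_natDegree]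
  intro i hi
  rw [coeff_jt_pow_of_lt, mul_zero]
  have hN : (0 : ℤ) < N := by exact_mod_cast Nat.pos_of_ne_zero (NeZero.ne N)
  have hi' : (i : ℤ) < p.natDegree := by exact_mod_cast Finset.mem_range.mp hi
  have := mul_lt_mul_of_pos_left hi' hN
  linarith

end

section

variable {R S : Type*} [CommRing R] [CommRing S] (f : R →+* S) (N : ℕ) [NeZero N]

theorem coeffMap_jt : coeffMap f (jt R N) = jt S N := coeffMap_jqNModC f N

theorem coeffMap_hahnC (r : R) :
    coeffMap f (HahnSeries.C r) = HahnSeries.C (f r) := by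
  rw [HahnSeries.C_apply, coeffMap_single, HahnSeries.C_apply]

/-- Base change of polynomials in `j(t^N)`. -/
theorem coeffMap_aeval_jt (q : R[X]) :
    coeffMap f (Polynomial.aeval (jt R N) q) = Polynomial.aeval (jt S N) (q.map f) := by
  rw [Polynomial.aeval_def, Polynomial.hom_eval₂, Polynomial.aeval_def, Polynomial.eval₂_map,
    coeffMap_jt]
  congr 1
  refine RingHom.ext fun r => ?_
  rw [RingHom.comp_apply, RingHom.comp_apply, algebraMap_eq_C, algebraMap_eq_C, coeffMap_hahnC]

theorem coeffMap_injective (hf : Function.Injective f) : Function.Injective (coeffMap f) := by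
  intro x y h
  ext k
  have := congrArg (fun z => z.coeff k) h
  simp only [coeffMap_coeff] at this
  exact hf this

/-- **Triangularity.**  If `Z` has coefficients in `R` and is, over `S`, a polynomial in `j(t^N)`,
then the polynomial has coefficients in `R`. -/
theorem exists_lift_of_coeffMap_eq_aeval_jt (hf : Function.Injective f) :
    ∀ (n : ℕ) (p : S[X]) (Z : LaurentSeries R), p.natDegree ≤ n →
      coeffMap f Z = Polynomial.aeval (jt S N) p →
      ∃ p' : R[X], p'.map f = p ∧ Z = Polynomial.aeval (jt R N) p' := by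
  have key : ∀ (p : S[X]) (Z : LaurentSeries R) (p' : R[X]), p'.map f = p →
      coeffMap f Z = Polynomial.aeval (jt S N) p → Z = Polynomial.aeval (jt R N) p' := by
    intro p Z p' hp h
    apply coeffMap_injective f hf
    rw [h, coeffMap_aeval_jt, hp]
  intro n
  induction n with
  | zero =>
    intro p Z hp h
    have hp0 : p.natDegree = 0 := Nat.le_zero.mp hp
    have hlc := coeff_aeval_jt_natDegree (S := S) N p
    rw [← h, coeffMap_coeff] at hlc
    refine ⟨C (Z.coeff (-((N : ℤ) * p.natDegree))), ?_, ?_⟩
    · rw [Polynomial.map_C, hlc]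
      conv_rhs => rw [Polynomial.eq_C_of_natDegree_eq_zero hp0]
      rw [Polynomial.leadingCoeff, hp0]
    · refine key p Z _ ?_ h
      rw [Polynomial.map_C, hlc]
      conv_rhs => rw [Polynomial.eq_C_of_natDegree_eq_zero hp0]
      rw [Polynomial.leadingCoeff, hp0]
  | succ n ih =>
    intro p Z hp h
    rcases Nat.lt_or_ge p.natDegree (n + 1) with hlt | hge
    · exact ih p Z (Nat.lt_succ_iff.mp hlt) h
    have hpn : p.natDegree = n + 1 := le_antisymm hp hge
    have hlc := coeff_aeval_jt_natDegree (S := S) N p
    rw [← h, coeffMap_coeff] at hlc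
    set r : R := Z.coeff (-((N : ℤ) * p.natDegree)) with hr
    have hdeg : p.eraseLead.natDegree ≤ n := by
      have := Polynomial.eraseLead_natDegree_le p
      omega
    have h1 : coeffMap f (Z - HahnSeries.C r * jt R N ^ p.natDegree) =
        Polynomial.aeval (jt S N) p.eraseLead := by
      have hsplit : Polynomial.aeval (jt S N) p = Polynomial.aeval (jt S N) p.eraseLead +
          HahnSeries.C p.leadingCoeff * jt S N ^ p.natDegree := by
        conv_lhs => rw [← Polynomial.eraseLead_add_C_mul_X_pow p]
        rw [map_add, map_mul, map_pow, Polynomial.aeval_X, Polynomial.aeval_C, algebraMap_eq_C]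
      rw [map_sub, map_mul, map_pow, coeffMap_jt, coeffMap_hahnC, h, hlc, hsplit]
      ring
    obtain ⟨q', hq', -⟩ := ih p.eraseLead _ hdeg h1
    refine ⟨q' + C r * X ^ p.natDegree, ?_, ?_⟩
    · rw [Polynomial.map_add, hq', Polynomial.map_mul, Polynomial.map_C, Polynomial.map_pow,
        Polynomial.map_X, hlc, Polynomial.eraseLead_add_C_mul_X_pow]
    · refine key p Z _ ?_ h
      rw [Polynomial.map_add, hq', Polynomial.map_mul, Polynomial.map_C, Polynomial.map_pow,
        Polynomial.map_X, hlc, Polynomial.eraseLead_add_C_mul_X_pow]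

/-- Triangularity, membership form. -/
theorem mem_range_aeval_jt_of_coeffMap (hf : Function.Injective f) (Z : LaurentSeries R)
    (h : coeffMap f Z ∈ Set.range (Polynomial.aeval (R := S) (jt S N))) :
    Z ∈ Set.range (Polynomial.aeval (R := R) (jt R N)) := by
  obtain ⟨p, hp⟩ := h
  obtain ⟨p', -, hp'⟩ := exists_lift_of_coeffMap_eq_aeval_jt f N hf p.natDegree p Z le_rfl hp.symm
  exact ⟨p', hp'.symm⟩

/-- Triangularity for polynomials: if the base change of `P ∈ R((t))[X]` to `S((t))[X]` has
coefficients in `S[j(t^N)]`, then `P` has coefficients in `R[j(t^N)]`.  This is the form of the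
`ANData` fields `charpoly_Y`, `charpoly_Yinv`, `lagrange`. -/
theorem mem_lifts_aeval_jt_of_coeffMap (hf : Function.Injective f)
    (P : Polynomial (LaurentSeries R))
    (h : P.map (coeffMap f) ∈
      Polynomial.lifts ((Polynomial.aeval (R := S) (jt S N)).toRingHom)) :
    P ∈ Polynomial.lifts ((Polynomial.aeval (R := R) (jt R N)).toRingHom) := by
  rw [Polynomial.lifts_iff_coeff_lifts] at h ⊢
  intro n
  have hn := h n
  rw [Polynomial.coeff_map] at hn
  exact mem_range_aeval_jt_of_coeffMap f N hf _ hn

end

end Fermat.Agent.S28
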