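import Fermat.Agent.S28.AN.Cusp
import Fermat.Agent.S28.AN.Triang
import Fermat.Agent.S28.AN.InvPolyJ

/-!
# S28, Part I, piece P5: invariant functions with a `t`-expansion are polynomials in `j(t^N)`

Uses: P3 (`HasTExp.add/mul/unique/isBoundedAtImInfty`), C2c + C3a (`hasTExp_jFun.expand N`) and
the Mathlib-only `InvPolyJ` (helper8964, S24; copied to `AN/InvPolyJ.lean`).
-/

set_option autoImplicit false

noncomputable section

namespace Fermat.Agent.S28

open ModularCurve UpperHalfPlane Polynomial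
open scoped MatrixGroups Manifold

/-- `j(t^N)` is the `t`-expansion of `j`. -/
theorem hasTExp_jFun_jt (N : ℕ) [NeZero N] : HasTExp N jFun (jt ℂ N) :=
  hasTExp_jFun.expand N

/-- Polynomials in `j`. -/
theorem HasTExp.aeval_jt (N : ℕ) [NeZero N] (P : Polynomial ℂ) :
    HasTExp N (fun τ => P.eval (jFun τ)) (Polynomial.aeval (jt ℂ N) P) := by
  induction P using Polynomial.induction_on with
  | C c =>
    have h := HasTExp.const N c
    have e1 : (fun τ : ℍ => (C c : Polynomial ℂ).eval (jFun τ)) = fun _ => c := by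
      funext τ
      rw [Polynomial.eval_C]
    rw [e1, Polynomial.aeval_C, algebraMap_eq_C]
    exact h
  | add p q hp hq =>
    have h := hp.add hq
    have e1 : (fun τ : ℍ => (p + q).eval (jFun τ)) =
        (fun τ : ℍ => p.eval (jFun τ)) + fun τ : ℍ => q.eval (jFun τ) := by
      funext τ
      rw [Polynomial.eval_add, Pi.add_apply]
    rw [e1, map_add]
    exact h
  | monomial n c h =>
    have h' := h.mul (hasTExp_jFun_jt N)
    have e1 : (fun τ : ℍ => (C c * X ^ (n + 1) : Polynomial ℂ).eval (jFun τ)) =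
        (fun τ : ℍ => (C c * X ^ n : Polynomial ℂ).eval (jFun τ)) * jFun := by
      funext τ
      simp only [Polynomial.eval_mul, Polynomial.eval_C, Polynomial.eval_pow, Polynomial.eval_X,
        Pi.mul_apply, pow_succ, mul_assoc]
    have e2 : Polynomial.aeval (jt ℂ N) (C c * X ^ (n + 1) : Polynomial ℂ) =
        Polynomial.aeval (jt ℂ N) (C c * X ^ n : Polynomial ℂ) * jt ℂ N := by
      simp only [map_mul, map_pow, Polynomial.aeval_X, pow_succ, mul_assoc]
    rw [e1, e2]
    exact h'

/-- **P5.** A holomorphic `SL(2, ℤ)`-invariant function with a `t`-expansion `g` satisfies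
`g = P(j(t^N))` for a polynomial `P`. -/
theorem exists_poly_of_invariant_hasTExp (N : ℕ) [NeZero N] (G : ℍ → ℂ) (g : LaurentSeries ℂ)
    (hG : MDiff G) (hinv : ∀ (γ : SL(2, ℤ)) (τ : ℍ), G (γ • τ) = G τ) (hexp : HasTExp N G g) :
    ∃ P : Polynomial ℂ, g = Polynomial.aeval (jt ℂ N) P := by
  set m : ℕ := (-g.order).toNat with hm
  have hm' : -((m : ℤ) * (N : ℤ)) ≤ g.order := by
    have hN : (1 : ℤ) ≤ N := by exact_mod_cast Nat.one_le_iff_ne_zero.mpr (NeZero.ne N)
    have h1 : -g.order ≤ m := Int.self_le_toNat _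
    have h2 : (0 : ℤ) ≤ m := Int.natCast_nonneg m
    nlinarith
  obtain ⟨P, -, hP⟩ :=
    InvPolyJ.exists_polynomial_of_invariant hG hinv m (hexp.isBoundedAtImInfty m hm')
  refine ⟨P, hexp.unique ?_⟩
  have h1 := HasTExp.aeval_jt N P
  have e : G = fun τ => P.eval (jFun τ) := funext fun τ => by rw [hP τ]; rfl
  rw [e]
  exact h1

end Fermat.Agent.S28
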