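import Fermat.Agent.S28.AN.Ring
import Fermat.Agent.S28.AN.Formal
import Fermat.Agent.S28.AN.Cusp
import Fermat.Agent.S28.AN.Invariant
import Fermat.Agent.S28.AN.Descent

/-!
# S28, Part I: assembly of `ANData` from the pieces P1–P6
-/

set_option autoImplicit false

noncomputable section

namespace Fermat.Agent.S28

open ModularCurve UpperHalfPlane Polynomial CongruenceSubgroup
open scoped MatrixGroups Manifold

section Assemble

variable (N : ℕ) [NeZero N]

omit [NeZero N] in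
theorem HasTExp.zero : HasTExp N 0 0 := by
  intro τ
  simp [hasSum_zero]

/-- The subring of pairs `(F, f)`: `F` holomorphic on `ℍ` with `t`-expansion `f`. -/
def texpSubring : Subring ((ℍ → ℂ) × LaurentSeries ℂ) where
  carrier := {p | MDiff p.1 ∧ HasTExp N p.1 p.2}
  mul_mem' := fun h h' => ⟨h.1.mul h'.1, h.2.mul h'.2⟩
  one_mem' := ⟨mdifferentiable_const, HasTExp.one N⟩
  add_mem' := fun h h' => ⟨h.1.add h'.1, h.2.add h'.2⟩
  zero_mem' := ⟨mdifferentiable_const, HasTExp.zero N⟩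
  neg_mem' := fun h => ⟨h.1.neg, h.2.neg⟩

/-- second projection -/
def texpSnd : texpSubring N →+* LaurentSeries ℂ :=
  (RingHom.snd (ℍ → ℂ) (LaurentSeries ℂ)).comp (texpSubring N).subtype

/-- first projection followed by evaluation at `τ` -/
def texpEval (τ : ℍ) : texpSubring N →+* ℂ :=
  (Pi.evalRingHom (fun _ : ℍ => ℂ) τ).comp
    ((RingHom.fst (ℍ → ℂ) (LaurentSeries ℂ)).comp (texpSubring N).subtype)

theorem texpSnd_apply (s : texpSubring N) : texpSnd N s = s.1.2 := rfl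

theorem texpEval_apply (τ : ℍ) (s : texpSubring N) : texpEval N τ s = s.1.1 τ := rfl

/-- Invariant elements of the subring whose expansion has coefficients in `RN N` are polynomials in
`j(t^N)` over `RN N`. -/
theorem mem_range_of_invariant (s : texpSubring N)
    (hinv : ∀ (γ : SL(2, ℤ)) (τ : ℍ), texpEval N (γ • τ) s = texpEval N τ s)
    (g : LaurentSeries (RN N)) (hg : coeffMap (RN N).subtype g = texpSnd N s) :
    g ∈ Set.range (Polynomial.aeval (R := RN N) (jt (RN N) N)).toRingHom := by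
  obtain ⟨P, hP⟩ := exists_poly_of_invariant_hasTExp N s.1.1 s.1.2 s.2.1 hinv s.2.2
  obtain ⟨P', hP'⟩ := descent_poly N (RN N) P g (by rw [← hP, hg]; rfl)
  exact ⟨P', hP'⟩

/-! ### Cosets -/

/-- Right coset representatives of `Γ₀(N)`, indexed by the left cosets: `rep u = (out u)⁻¹`. -/
def cosetRep (u : SL(2, ℤ) ⧸ Gamma0 N) : SL(2, ℤ) := (Quotient.out u)⁻¹

theorem cosetRep_mul (γ : SL(2, ℤ)) (u : SL(2, ℤ) ⧸ Gamma0 N) :
    ∃ h ∈ Gamma0 N, cosetRep N u * γ = h * cosetRep N (γ⁻¹ • u) := by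
  refine ⟨(Quotient.out u)⁻¹ * γ * Quotient.out (γ⁻¹ • u), ?_, ?_⟩
  · have h1 : (QuotientGroup.mk (Quotient.out (γ⁻¹ • u)) : SL(2, ℤ) ⧸ Gamma0 N) =
        QuotientGroup.mk (γ⁻¹ * Quotient.out u) := by
      rw [QuotientGroup.out_eq']
      conv_lhs => rw [← QuotientGroup.out_eq' u]
      rfl
    have h2 := QuotientGroup.eq.mp h1.symm
    simpa [mul_assoc] using h2
  · simp [cosetRep, mul_assoc]

theorem dvd_of_mem_Gamma0 {h : SL(2, ℤ)} (hh : h ∈ Gamma0 N) : (N : ℤ) ∣ h 1 0 :=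
  (ZMod.intCast_zmod_eq_zero_iff_dvd _ N).mp (Gamma0_mem.mp hh)

theorem mem_Gamma0_of_dvd {h : SL(2, ℤ)} (hh : (N : ℤ) ∣ h 1 0) : h ∈ Gamma0 N :=
  Gamma0_mem.mpr ((ZMod.intCast_zmod_eq_zero_iff_dvd _ N).mpr hh)

theorem yFun_smul_Gamma0 {h : SL(2, ℤ)} (hh : h ∈ Gamma0 N) (τ : ℍ) :
    yFun N (h • τ) = yFun N τ := by
  have h1 := hasTExp_yFun_smul N h τ
  have h2 := hasTExp_yFun_smul N 1 τ
  rw [Ycusp_base N h (dvd_of_mem_Gamma0 N hh)] at h1
  rw [Ycusp_base N 1 (by simp)] at h2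
  simpa using h1.unique h2

theorem jFun_smul_Gamma0 {h : SL(2, ℤ)} (hh : h ∈ Gamma0 N) (d : ℕ) (hd : d ∣ N) (τ : ℍ) :
    jFun (scaleH d (h • τ)) = jFun (scaleH d τ) := by
  haveI : NeZero d := ⟨ne_zero_of_dvd_ne_zero (NeZero.ne N) hd⟩
  have h1 := hasTExp_jFun_smul N h d hd τ
  have h2 := hasTExp_jFun_smul N 1 d hd τ
  rw [Jcusp_base N h (dvd_of_mem_Gamma0 N hh) d hd] at h1
  rw [Jcusp_base N 1 (by simp) d hd] at h2
  simpa using h1.unique h2

theorem yFun_cosetRep_smul (γ : SL(2, ℤ)) (u : SL(2, ℤ) ⧸ Gamma0 N) (τ : ℍ) :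
    yFun N (cosetRep N u • γ • τ) = yFun N (cosetRep N (γ⁻¹ • u) • τ) := by
  obtain ⟨h, hh, e⟩ := cosetRep_mul N γ u
  rw [← mul_smul, e, mul_smul, yFun_smul_Gamma0 N hh]

theorem jFun_cosetRep_smul (γ : SL(2, ℤ)) (u : SL(2, ℤ) ⧸ Gamma0 N) (d : ℕ) (hd : d ∣ N) (τ : ℍ) :
    jFun (scaleH d (cosetRep N u • γ • τ)) = jFun (scaleH d (cosetRep N (γ⁻¹ • u) • τ)) := by
  obtain ⟨h, hh, e⟩ := cosetRep_mul N γ u
  rw [← mul_smul, e, mul_smul, jFun_smul_Gamma0 N hh d hd]

/-! ### Reindexing -/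

theorem prod_X_sub_C_comp {A ι : Type*} [CommRing A] [Fintype ι] (σ : Equiv.Perm ι) (a : ι → A) :
    ∏ u, (X - C (a (σ u))) = ∏ u, (X - C (a u)) :=
  Equiv.prod_comp σ (fun u => X - C (a u))

theorem lagrange_sum_comp {A ι : Type*} [CommRing A] [Fintype ι] [DecidableEq ι]
    (σ : Equiv.Perm ι) (a b : ι → A) :
    ∑ u, C (b (σ u)) * ∏ u' ∈ Finset.univ.erase u, (X - C (a (σ u'))) =
      ∑ u, C (b u) * ∏ u' ∈ Finset.univ.erase u, (X - C (a u')) := by
  rw [← Equiv.sum_comp σ (fun v => C (b v) * ∏ u' ∈ Finset.univ.erase v, (X - C (a u')))]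
  refine Finset.sum_congr rfl fun u _ => ?_
  congr 1
  have : Finset.univ.erase (σ u) = (Finset.univ.erase u).map σ.toEmbedding := by
    rw [Finset.map_erase, Finset.map_univ_equiv]
    rfl
  rw [this, Finset.prod_map]
  rfl

/-! ### The assembly -/

/-- **Part I.** -/
theorem exists_ANData : Nonempty (ANData N) := by
  classical
  let ι : Type := SL(2, ℤ) ⧸ Gamma0 N
  haveI : Finite ι := Subgroup.finite_quotient_of_finiteIndex
  letI : Fintype ι := Fintype.ofFinite ι
  let rep : ι → SL(2, ℤ) := cosetRep N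
  let u₀ : ι := QuotientGroup.mk 1
  have hrep₀ : rep u₀ ∈ Gamma0 N := by
    have h1 : (QuotientGroup.mk (Quotient.out u₀) : SL(2, ℤ) ⧸ Gamma0 N) = QuotientGroup.mk 1 :=
      QuotientGroup.out_eq' u₀
    have h2 := QuotientGroup.eq.mp h1
    simpa [rep, cosetRep] using h2
  have hrep : ∀ u : ι, u ≠ u₀ → rep u ∉ Gamma0 N := by
    intro u hu hmem
    apply hu
    rw [← QuotientGroup.out_eq' u]
    refine QuotientGroup.eq.mpr ?_
    simpa [rep, cosetRep] using hmem
  -- the elements of the subring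
  let sY : ι → texpSubring N := fun u =>
    ⟨(fun τ => yFun N (rep u • τ), coeffMap (RN N).subtype (Ycusp N (rep u))),
      mdiff_yFun_smul N (rep u), hasTExp_yFun_smul N (rep u)⟩
  let sYi : ι → texpSubring N := fun u =>
    ⟨(fun τ => (yFun N (rep u • τ))⁻¹, coeffMap (RN N).subtype
        (((Ycusp N (rep u))⁻¹ : (LaurentSeries (RN N))ˣ) : LaurentSeries (RN N))),
      mdiff_yFun_inv_smul N (rep u), hasTExp_yFun_inv_smul N (rep u)⟩
  have hpos : ∀ d : ℕ, d ∣ N → 0 < d := fun d hd =>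
    Nat.pos_of_ne_zero (ne_zero_of_dvd_ne_zero (NeZero.ne N) hd)
  refine ⟨{
    R := RN N
    ι := ι
    u₀ := u₀
    Y := fun u => Ycusp N (rep u)
    J := fun u d => Jcusp N (rep u) d
    integral := fun ℓ hℓ hℓN r => RN_integral N ℓ hℓ hℓN r
    base_Y := Ycusp_base N (rep u₀) (dvd_of_mem_Gamma0 N hrep₀)
    base_J := fun d _ hd => Jcusp_base N (rep u₀) (dvd_of_mem_Gamma0 N hrep₀) d hd
    charpoly_Y := ?_
    charpoly_Yinv := ?_
    lagrange := ?_
    order_Y := fun u hu => Ycusp_order N (rep u) (fun h => hrep u hu (mem_Gamma0_of_dvd N h)) }⟩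
  · -- charpoly_Y
    rw [Polynomial.lifts_iff_coeff_lifts]
    intro k
    refine mem_range_of_invariant N ((∏ u, (X - C (sY u))).coeff k) ?_ _ ?_
    · intro γ τ
      rw [← Polynomial.coeff_map, ← Polynomial.coeff_map]
      congr 1
      simp only [Polynomial.map_prod, Polynomial.map_sub, Polynomial.map_X, Polynomial.map_C]
      have e : ∀ u, texpEval N (γ • τ) (sY u) = texpEval N τ (sY ((MulAction.toPerm γ⁻¹) u)) :=
        fun u => yFun_cosetRep_smul N γ u τ
      simp only [e]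
      exact prod_X_sub_C_comp (MulAction.toPerm γ⁻¹) (fun u => texpEval N τ (sY u))
    · rw [← Polynomial.coeff_map, ← Polynomial.coeff_map]
      congr 1
      simp only [Polynomial.map_prod, Polynomial.map_sub, Polynomial.map_X, Polynomial.map_C]
      rfl
  · -- charpoly_Yinv
    rw [Polynomial.lifts_iff_coeff_lifts]
    intro k
    refine mem_range_of_invariant N ((∏ u, (X - C (sYi u))).coeff k) ?_ _ ?_
    · intro γ τ
      rw [← Polynomial.coeff_map, ← Polynomial.coeff_map]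
      congr 1
      simp only [Polynomial.map_prod, Polynomial.map_sub, Polynomial.map_X, Polynomial.map_C]
      have e : ∀ u, texpEval N (γ • τ) (sYi u) = texpEval N τ (sYi ((MulAction.toPerm γ⁻¹) u)) :=
        fun u => congrArg (·⁻¹) (yFun_cosetRep_smul N γ u τ)
      simp only [e]
      exact prod_X_sub_C_comp (MulAction.toPerm γ⁻¹) (fun u => texpEval N τ (sYi u))
    · rw [← Polynomial.coeff_map, ← Polynomial.coeff_map]
      congr 1
      simp only [Polynomial.map_prod, Polynomial.map_sub, Polynomial.map_X, Polynomial.map_C]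
      rfl
  · -- lagrange
    intro d hd
    let sJ : ι → texpSubring N := fun u =>
      ⟨(fun τ => jFun (scaleH d (rep u • τ)), coeffMap (RN N).subtype (Jcusp N (rep u) d)),
        mdiff_jFun_smul (rep u) d (hpos d hd), hasTExp_jFun_smul N (rep u) d hd⟩
    rw [Polynomial.lifts_iff_coeff_lifts]
    intro k
    refine mem_range_of_invariant N
      ((∑ u, C (sJ u) * ∏ u' ∈ Finset.univ.erase u, (X - C (sY u'))).coeff k) ?_ _ ?_
    · intro γ τ
      rw [← Polynomial.coeff_map, ← Polynomial.coeff_map]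
      congr 1
      simp only [Polynomial.map_sum, Polynomial.map_mul, Polynomial.map_prod, Polynomial.map_sub,
        Polynomial.map_X, Polynomial.map_C]
      have e : ∀ u, texpEval N (γ • τ) (sY u) = texpEval N τ (sY ((MulAction.toPerm γ⁻¹) u)) :=
        fun u => yFun_cosetRep_smul N γ u τ
      have e' : ∀ u, texpEval N (γ • τ) (sJ u) = texpEval N τ (sJ ((MulAction.toPerm γ⁻¹) u)) :=
        fun u => jFun_cosetRep_smul N γ u d hd τ
      simp only [e, e']
      exact lagrange_sum_comp (MulAction.toPerm γ⁻¹) (fun u => texpEval N τ (sY u))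
        (fun u => texpEval N τ (sJ u))
    · rw [← Polynomial.coeff_map, ← Polynomial.coeff_map]
      congr 1
      simp only [Polynomial.map_sum, Polynomial.map_mul, Polynomial.map_prod, Polynomial.map_sub,
        Polynomial.map_X, Polynomial.map_C]
      rfl

end Assemble

end Fermat.Agent.S28
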