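/-
S24 helper module (helper6564): bridge between the formal q-series `ModularCurve.jq`
of the Prelude and the analytic function `E₄ ^ 3 / Δ` on the upper half plane.
Imports: Mathlib and the Prelude definition module only.
-/
import Mathlib
import Fermat.Prelude.Def_ModularCurve_X0

set_option autoImplicit false

noncomputable section

namespace Fermat.Agent.S28.AN

open Filter Topology Metric
open scoped Nat

/-! ### Taylor coefficients at the origin as a power series -/

/-- The Taylor series at `0` of a function `ℂ → ℂ`, as a formal power series. -/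
def taylorPS (f : ℂ → ℂ) : PowerSeries ℂ :=
  PowerSeries.mk fun m => ((m ! : ℕ) : ℂ)⁻¹ * iteratedDeriv m f 0

theorem coeff_taylorPS (f : ℂ → ℂ) (m : ℕ) :
    PowerSeries.coeff m (taylorPS f) = ((m ! : ℕ) : ℂ)⁻¹ * iteratedDeriv m f 0 := by
  simp [taylorPS]

theorem taylorPS_hasSum {f : ℂ → ℂ} (hf : DifferentiableOn ℂ f (ball (0 : ℂ) 1)) {q : ℂ}
    (hq : ‖q‖ < 1) :
    HasSum (fun m : ℕ => PowerSeries.coeff m (taylorPS f) * q ^ m) (f q) := by
  have h := Complex.hasSum_taylorSeries_on_ball hf (z := q) (by simpa using hq)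
  have e : (fun n : ℕ => ((n ! : ℕ) : ℂ)⁻¹ • (q - 0) ^ n • iteratedDeriv n f 0) =
      fun m : ℕ => PowerSeries.coeff m (taylorPS f) * q ^ m := by
    funext m
    rw [coeff_taylorPS]
    simp only [sub_zero, smul_eq_mul]
    ring
  rw [← e]
  exact h

theorem taylorPS_congr {f g : ℂ → ℂ} (h : f =ᶠ[𝓝 0] g) : taylorPS f = taylorPS g := by
  ext m
  rw [coeff_taylorPS, coeff_taylorPS, h.iteratedDeriv_eq m]

theorem contDiffAt_of_differentiableOn_ball {f : ℂ → ℂ}
    (hf : DifferentiableOn ℂ f (ball (0 : ℂ) 1)) (n : ℕ) : ContDiffAt ℂ n f 0 :=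
  (hf.analyticAt (ball_mem_nhds 0 one_pos)).contDiffAt

theorem taylorPS_mul {f g : ℂ → ℂ} (hf : DifferentiableOn ℂ f (ball (0 : ℂ) 1))
    (hg : DifferentiableOn ℂ g (ball (0 : ℂ) 1)) :
    taylorPS (f * g) = taylorPS f * taylorPS g := by
  ext m
  rw [coeff_taylorPS, PowerSeries.coeff_mul,
    iteratedDeriv_mul (contDiffAt_of_differentiableOn_ball hf m)
      (contDiffAt_of_differentiableOn_ball hg m),
    Finset.Nat.sum_antidiagonal_eq_sum_range_succ_mk, Finset.mul_sum]
  refine Finset.sum_congr rfl fun i hi => ?_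
  have hi' : i ≤ m := Nat.lt_succ_iff.mp (Finset.mem_range.mp hi)
  rw [coeff_taylorPS, coeff_taylorPS, Nat.cast_choose ℂ hi']
  have h1 : ((i ! : ℕ) : ℂ) ≠ 0 := Nat.cast_ne_zero.mpr (Nat.factorial_ne_zero i)
  have h2 : (((m - i) ! : ℕ) : ℂ) ≠ 0 := Nat.cast_ne_zero.mpr (Nat.factorial_ne_zero _)
  have h3 : ((m ! : ℕ) : ℂ) ≠ 0 := Nat.cast_ne_zero.mpr (Nat.factorial_ne_zero m)
  field_simp

theorem taylorPS_sub {f g : ℂ → ℂ} (hf : DifferentiableOn ℂ f (ball (0 : ℂ) 1))
    (hg : DifferentiableOn ℂ g (ball (0 : ℂ) 1)) :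
    taylorPS (f - g) = taylorPS f - taylorPS g := by
  ext m
  rw [map_sub, coeff_taylorPS, coeff_taylorPS, coeff_taylorPS,
    iteratedDeriv_sub (contDiffAt_of_differentiableOn_ball hf m)
      (contDiffAt_of_differentiableOn_ball hg m), mul_sub]

theorem taylorPS_const_one : taylorPS (fun _ => (1 : ℂ)) = 1 := by
  ext m
  rw [coeff_taylorPS, iteratedDeriv_const, PowerSeries.coeff_one]
  rcases Nat.eq_zero_or_pos m with rfl | hm
  · simp
  · simp [hm.ne']

theorem taylorPS_pow_id (k : ℕ) : taylorPS (fun q : ℂ => q ^ k) = PowerSeries.X ^ k := by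
  ext m
  rw [coeff_taylorPS, iteratedDeriv_fun_pow_zero, PowerSeries.coeff_X_pow]
  by_cases h : m = k
  · subst h
    have h3 : ((m ! : ℕ) : ℂ) ≠ 0 := Nat.cast_ne_zero.mpr (Nat.factorial_ne_zero m)
    simp [h3]
  · simp [h]

theorem taylorPS_one_sub_pow (k : ℕ) :
    taylorPS (fun q : ℂ => 1 - q ^ k) = 1 - PowerSeries.X ^ k := by
  have h := taylorPS_sub (f := fun _ => (1 : ℂ)) (g := fun q : ℂ => q ^ k)
    (differentiableOn_const _) (by fun_prop)
  rw [taylorPS_const_one, taylorPS_pow_id] at h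
  exact h

theorem taylorPS_finset_prod {ι : Type*} (s : Finset ι) (F : ι → ℂ → ℂ)
    (hF : ∀ i ∈ s, DifferentiableOn ℂ (F i) (ball (0 : ℂ) 1)) :
    taylorPS (fun q => ∏ i ∈ s, F i q) = ∏ i ∈ s, taylorPS (F i) := by
  classical
  induction s using Finset.induction_on with
  | empty => simpa using taylorPS_const_one
  | insert a s ha ih =>
    have hF' : ∀ i ∈ s, DifferentiableOn ℂ (F i) (ball (0 : ℂ) 1) :=
      fun i hi => hF i (Finset.mem_insert_of_mem hi)
    have hprod : DifferentiableOn ℂ (fun q => ∏ i ∈ s, F i q) (ball (0 : ℂ) 1) :=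
      DifferentiableOn.fun_finsetProd hF'
    have e : (fun q => ∏ i ∈ insert a s, F i q) = F a * fun q => ∏ i ∈ s, F i q := by
      funext q
      simp [Finset.prod_insert ha]
    rw [e, taylorPS_mul (hF a (Finset.mem_insert_self a s)) hprod, ih hF',
      Finset.prod_insert ha]

/-! ### Taylor coefficients pass to locally uniform limits -/

theorem tendstoLocallyUniformlyOn_iteratedDeriv {ι : Type*} {l : Filter ι} {F : ι → ℂ → ℂ}
    {f : ℂ → ℂ} {U : Set ℂ} (hU : IsOpen U) (hf : TendstoLocallyUniformlyOn F f l U)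
    (hF : ∀ᶠ n in l, DifferentiableOn ℂ (F n) U) (m : ℕ) :
    TendstoLocallyUniformlyOn (fun n => iteratedDeriv m (F n)) (iteratedDeriv m f) l U ∧
      ∀ᶠ n in l, DifferentiableOn ℂ (iteratedDeriv m (F n)) U := by
  induction m with
  | zero => simpa [iteratedDeriv_zero] using ⟨hf, hF⟩
  | succ m ih =>
    refine ⟨?_, ?_⟩
    · have h := ih.1.deriv ih.2 hU
      simpa [Function.comp_def, iteratedDeriv_succ] using h
    · filter_upwards [ih.2] with n hn
      rw [iteratedDeriv_succ]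
      exact ((hn.analyticOnNhd hU).deriv).differentiableOn

theorem tendsto_coeff_taylorPS {ι : Type*} {l : Filter ι} {F : ι → ℂ → ℂ}
    {f : ℂ → ℂ} (hf : TendstoLocallyUniformlyOn F f l (ball (0 : ℂ) 1))
    (hF : ∀ᶠ n in l, DifferentiableOn ℂ (F n) (ball (0 : ℂ) 1)) (m : ℕ) :
    Tendsto (fun n => PowerSeries.coeff m (taylorPS (F n))) l
      (𝓝 (PowerSeries.coeff m (taylorPS f))) := by
  have h := (tendstoLocallyUniformlyOn_iteratedDeriv isOpen_ball hf hF m).1.tendsto_at
    (mem_ball_self one_pos)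
  simp only [coeff_taylorPS]
  exact h.const_mul _

/-! ### The Euler function `∏ (1 - q^(n+1))` and the formal `etaProd` -/

open scoped PowerSeries.WithPiTopology

/-- The analytic Euler function `q ↦ ∏' n, (1 - q ^ (n + 1))`. -/
def eulerFun (q : ℂ) : ℂ := ∏' n : ℕ, (1 - q ^ (n + 1))

theorem differentiableOn_eulerFun : DifferentiableOn ℂ eulerFun (ball (0 : ℂ) 1) :=
  ModularForm.differentiableOn_tprod_one_sub_pow

theorem eulerFun_ne_zero {q : ℂ} (hq : ‖q‖ < 1) : eulerFun q ≠ 0 := by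
  have hsum : Summable fun n : ℕ => ‖-q ^ (n + 1)‖ := by
    simpa using (summable_nat_add_iff 1).mpr (summable_geometric_of_lt_one (norm_nonneg q) hq)
  have h := tprod_one_add_ne_zero_of_summable (f := fun n : ℕ => -q ^ (n + 1)) ?_ hsum
  · simpa [eulerFun, sub_eq_add_neg] using h
  · intro i h0
    have h1 : q ^ (i + 1) = 1 := by
      have : (1 : ℂ) + -q ^ (i + 1) = 0 := h0
      linear_combination -this
    have h2 : ‖q‖ ^ (i + 1) = 1 := by rw [← norm_pow, h1, norm_one]
    have h3 : ‖q‖ ^ (i + 1) < 1 := pow_lt_one₀ (norm_nonneg q) hq (Nat.succ_ne_zero i)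
    linarith

theorem coeff_finset_prod_eventually_eq_etaProd (m : ℕ) :
    ∀ᶠ s : Finset ℕ in atTop,
      PowerSeries.coeff m (∏ n ∈ s, (1 - PowerSeries.X ^ (n + 1) : PowerSeries ℤ)) =
        PowerSeries.coeff m ModularCurve.etaProd := by
  have h := (PowerSeries.WithPiTopology.multipliable_one_sub_X_pow ℤ).hasProd
  rw [HasProd, PowerSeries.WithPiTopology.tendsto_iff_coeff_tendsto] at h
  have hm := h m
  rw [nhds_discrete, tendsto_pure] at hm
  simpa [ModularCurve.etaProd] using hm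

theorem taylorPS_eulerFun :
    taylorPS eulerFun = PowerSeries.map (Int.castRingHom ℂ) ModularCurve.etaProd := by
  ext m
  have hloc : TendstoLocallyUniformlyOn
      (fun (s : Finset ℕ) (q : ℂ) => ∏ n ∈ s, (1 - q ^ (n + 1))) eulerFun atTop
      (ball (0 : ℂ) 1) :=
    ModularForm.multipliableLocallyUniformlyOn_one_sub_pow.hasProdLocallyUniformlyOn
  have hdiff : ∀ s : Finset ℕ,
      DifferentiableOn ℂ (fun q : ℂ => ∏ n ∈ s, (1 - q ^ (n + 1))) (ball (0 : ℂ) 1) :=
    fun s => DifferentiableOn.fun_finsetProd fun n _ => by fun_prop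
  have h1 := tendsto_coeff_taylorPS hloc (Eventually.of_forall hdiff) m
  have h2 : ∀ s : Finset ℕ, taylorPS (fun q : ℂ => ∏ n ∈ s, (1 - q ^ (n + 1))) =
      PowerSeries.map (Int.castRingHom ℂ)
        (∏ n ∈ s, (1 - PowerSeries.X ^ (n + 1) : PowerSeries ℤ)) := by
    intro s
    rw [taylorPS_finset_prod s (fun n q => 1 - q ^ (n + 1)) (fun n _ => by fun_prop),
      map_prod]
    refine Finset.prod_congr rfl fun n _ => ?_
    rw [taylorPS_one_sub_pow, map_sub, map_one, map_pow, PowerSeries.map_X]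
  have h3 : ∀ᶠ s : Finset ℕ in atTop,
      PowerSeries.coeff m (taylorPS (fun q : ℂ => ∏ n ∈ s, (1 - q ^ (n + 1)))) =
        PowerSeries.coeff m (PowerSeries.map (Int.castRingHom ℂ) ModularCurve.etaProd) := by
    filter_upwards [coeff_finset_prod_eventually_eq_etaProd m] with s hs
    rw [h2 s, PowerSeries.coeff_map, PowerSeries.coeff_map, hs]
  exact tendsto_nhds_unique h1 (tendsto_const_nhds.congr' (h3.mono fun s hs => hs.symm))

theorem taylorPS_pow {f : ℂ → ℂ} (hf : DifferentiableOn ℂ f (ball (0 : ℂ) 1)) (n : ℕ) :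
    taylorPS (fun q => f q ^ n) = taylorPS f ^ n := by
  induction n with
  | zero => simpa using taylorPS_const_one
  | succ n ih =>
    have e : (fun q => f q ^ (n + 1)) = (fun q => f q ^ n) * f := by
      funext q
      simp [pow_succ]
    rw [e, taylorPS_mul (hf.fun_pow n) hf, ih, pow_succ]

/-! ### The Eisenstein series `E₄` -/

open UpperHalfPlane ModularForm

local notation "𝕢" => Function.Periodic.qParam

theorem taylorPS_cuspFunction (f : ℍ → ℂ) : taylorPS (cuspFunction 1 f) = qExpansion 1 f := by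
  ext m
  rw [coeff_taylorPS, qExpansion_coeff]

theorem qExpansion_E4 :
    qExpansion 1 E₄ = PowerSeries.map (Int.castRingHom ℂ) ModularCurve.eisenstein4 := by
  ext m
  rw [EisensteinSeries.E_qExpansion_coeff (by norm_num) ⟨2, rfl⟩ m, PowerSeries.coeff_map]
  simp only [ModularCurve.eisenstein4, PowerSeries.coeff_mk]
  by_cases hm : m = 0
  · simp [hm]
  · rw [if_neg hm, if_neg hm]
    have hb : bernoulli 4 = -1 / 30 := by decide +kernel
    rw [hb, ArithmeticFunction.sigma_apply, eq_intCast]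
    push_cast
    ring

theorem differentiableOn_cuspFunction_E4 :
    DifferentiableOn ℂ (cuspFunction 1 E₄) (ball (0 : ℂ) 1) := fun q hq =>
  (ModularFormClass.differentiableAt_cuspFunction E₄ one_pos
    one_mem_strictPeriods_SL (by simpa using hq)).differentiableWithinAt

/-! ### The function with Taylor series `jNum` -/

/-- The function `q ↦ E₄(q)^3 / ∏ (1 - q^n)^24` on the unit disc (`= q * j`). -/
def jNumFun (q : ℂ) : ℂ := cuspFunction 1 E₄ q ^ 3 / eulerFun q ^ 24

theorem differentiableOn_jNumFun : DifferentiableOn ℂ jNumFun (ball (0 : ℂ) 1) :=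
  (differentiableOn_cuspFunction_E4.fun_pow 3).fun_div (differentiableOn_eulerFun.fun_pow 24)
    fun q hq => pow_ne_zero _ (eulerFun_ne_zero (by simpa using hq))

theorem formal_jNum_mul :
    ModularCurve.jNum * ModularCurve.etaProd ^ 24 = ModularCurve.eisenstein4 ^ 3 := by
  have h := ModularCurve.dedekindEtaUnit_mul_inv
  rw [ModularCurve.dedekindEtaUnit] at h
  rw [ModularCurve.jNum, mul_assoc, mul_comm ModularCurve.dedekindEtaUnitInv, h, mul_one]

theorem taylorPS_jNumFun :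
    taylorPS jNumFun = PowerSeries.map (Int.castRingHom ℂ) ModularCurve.jNum := by
  have hE := differentiableOn_cuspFunction_E4
  have hP := differentiableOn_eulerFun
  have hP24 : DifferentiableOn ℂ (fun q => eulerFun q ^ 24) (ball (0 : ℂ) 1) := hP.fun_pow 24
  have hmul : (jNumFun * fun q => eulerFun q ^ 24) =ᶠ[𝓝 0]
      (fun q => cuspFunction 1 E₄ q ^ 3) := by
    filter_upwards [ball_mem_nhds (0 : ℂ) one_pos] with q hq
    simp only [Pi.mul_apply, jNumFun]
    exact div_mul_cancel₀ _ (pow_ne_zero _ (eulerFun_ne_zero (by simpa using hq)))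
  have h1 : taylorPS jNumFun * taylorPS eulerFun ^ 24 = taylorPS (cuspFunction 1 E₄) ^ 3 := by
    rw [← taylorPS_pow hP 24, ← taylorPS_pow hE 3, ← taylorPS_mul differentiableOn_jNumFun hP24,
      taylorPS_congr hmul]
  rw [taylorPS_eulerFun, taylorPS_cuspFunction, qExpansion_E4] at h1
  have h2 := congrArg (PowerSeries.map (Int.castRingHom ℂ)) formal_jNum_mul
  rw [map_mul, map_pow, map_pow] at h2
  have hne : PowerSeries.map (Int.castRingHom ℂ) ModularCurve.etaProd ^ 24 ≠ 0 := by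
    refine pow_ne_zero _ fun h0 => ?_
    have hc := congrArg (PowerSeries.coeff 0) h0
    rw [PowerSeries.coeff_map, PowerSeries.coeff_zero_eq_constantCoeff,
      ModularCurve.constantCoeff_etaProd] at hc
    simp at hc
  exact mul_right_cancel₀ hne (h1.trans h2.symm)

/-- For `‖q‖ < 1` the series `∑ jNum_m q^m` converges to `E₄(q)^3 / ∏ (1 - q^n)^24`. -/
theorem hasSum_jNum {q : ℂ} (hq : ‖q‖ < 1) :
    HasSum (fun m : ℕ => ((PowerSeries.coeff m ModularCurve.jNum : ℤ) : ℂ) * q ^ m)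
      (jNumFun q) := by
  have h := taylorPS_hasSum differentiableOn_jNumFun hq
  simpa [taylorPS_jNumFun, PowerSeries.coeff_map] using h

/-- Absolute convergence of the formal series `jNum` inside the unit disc. -/
theorem summable_norm_jNum {r : ℝ} (hr0 : 0 ≤ r) (hr : r < 1) :
    Summable fun m : ℕ => ‖((PowerSeries.coeff m ModularCurve.jNum : ℤ) : ℂ)‖ * r ^ m := by
  have h := (hasSum_jNum (q := (r : ℂ)) (by simpa [abs_of_nonneg hr0] using hr)).summable.norm
  simpa [norm_mul, norm_pow, abs_of_nonneg hr0] using h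

theorem jNumFun_qParam (τ : ℍ) :
    jNumFun (𝕢 1 τ) = 𝕢 1 τ * E₄ τ ^ 3 / discriminant τ := by
  have hq : ‖𝕢 1 (τ : ℂ)‖ < 1 := Function.Periodic.norm_qParam_lt_one one_pos τ.im_pos
  have hq0 : 𝕢 1 (τ : ℂ) ≠ 0 := Function.Periodic.qParam_ne_zero _
  have hE : cuspFunction 1 E₄ (𝕢 1 τ) = E₄ τ :=
    SlashInvariantFormClass.eq_cuspFunction E₄ τ one_mem_strictPeriods_SL
      one_ne_zero
  have hD : discriminant τ = 𝕢 1 τ * eulerFun (𝕢 1 τ) ^ 24 := by
    rw [discriminant_eq_q_prod, eulerFun, ← (multipliable_one_sub_pow hq).tprod_pow 24]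
  rw [jNumFun, hE, hD]
  field_simp

/-! ### Statements in terms of the Prelude series `jq` -/

theorem jq_coeff_natCast_sub_one (m : ℕ) :
    ModularCurve.jq.coeff ((m : ℤ) - 1) = ((PowerSeries.coeff m ModularCurve.jNum : ℤ) : ℚ) := by
  rw [ModularCurve.jq, HahnSeries.coeff_single_mul, one_mul,
    show (m : ℤ) - 1 - (-1) = (m : ℤ) by ring, HahnSeries.ofPowerSeries_apply_coeff,
    ModularCurve.jNumQ, PowerSeries.coeff_map, eq_intCast]

/-- For `0 < ‖q‖ < 1`: `∑_{m ≥ 0} jq_{m-1} q^(m-1) = E₄(q)^3 / (q ∏ (1 - q^n)^24)`. -/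
theorem hasSum_jq_nat {q : ℂ} (hq : ‖q‖ < 1) (hq0 : q ≠ 0) :
    HasSum (fun m : ℕ => ((ModularCurve.jq.coeff ((m : ℤ) - 1) : ℚ) : ℂ) * q ^ ((m : ℤ) - 1))
      (jNumFun q / q) := by
  have h := (hasSum_jNum hq).mul_right q⁻¹
  have e : (fun m : ℕ => ((PowerSeries.coeff m ModularCurve.jNum : ℤ) : ℂ) * q ^ m * q⁻¹) =
      fun m : ℕ => ((ModularCurve.jq.coeff ((m : ℤ) - 1) : ℚ) : ℂ) * q ^ ((m : ℤ) - 1) := by
    funext m
    rw [jq_coeff_natCast_sub_one, zpow_sub_one₀ hq0, zpow_natCast, mul_assoc]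
    push_cast
    rfl
  rw [e] at h
  simpa [div_eq_mul_inv] using h

/-- For `0 < ‖q‖ < 1`: `∑_{k ∈ ℤ} jq_k q^k = E₄(q)^3 / (q ∏ (1 - q^n)^24)`. -/
theorem hasSum_jq_int {q : ℂ} (hq : ‖q‖ < 1) (hq0 : q ≠ 0) :
    HasSum (fun k : ℤ => ((ModularCurve.jq.coeff k : ℚ) : ℂ) * q ^ k) (jNumFun q / q) := by
  have hinj : Function.Injective fun m : ℕ => (m : ℤ) - 1 := fun a b hab => by
    have : (a : ℤ) = b := by linarith
    exact_mod_cast this
  have hzero : ∀ k : ℤ, k ∉ Set.range (fun m : ℕ => (m : ℤ) - 1) →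
      ((ModularCurve.jq.coeff k : ℚ) : ℂ) * q ^ k = 0 := by
    intro k hk
    have hk' : k < -1 := by
      by_contra hcon
      exact hk ⟨(k + 1).toNat, by
        have : ((k + 1).toNat : ℤ) = k + 1 := Int.toNat_of_nonneg (by linarith)
        simp only [this]; ring⟩
    rw [ModularCurve.coeff_jq_of_lt hk']
    simp
  exact (hinj.hasSum_iff hzero).mp (hasSum_jq_nat hq hq0)

/-- The q-expansion of `E₄^3 / Δ` at `q = exp(2πiτ)` is the Prelude series `jq`. -/
theorem hasSum_jq_qParam (τ : ℍ) :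
    HasSum (fun k : ℤ => ((ModularCurve.jq.coeff k : ℚ) : ℂ) * 𝕢 1 τ ^ k)
      (E₄ τ ^ 3 / discriminant τ) := by
  have hq : ‖𝕢 1 (τ : ℂ)‖ < 1 := Function.Periodic.norm_qParam_lt_one one_pos τ.im_pos
  have hq0 : 𝕢 1 (τ : ℂ) ≠ 0 := Function.Periodic.qParam_ne_zero _
  have h := hasSum_jq_int hq hq0
  rw [jNumFun_qParam] at h
  have e : 𝕢 1 (τ : ℂ) * E₄ τ ^ 3 / discriminant τ / 𝕢 1 (τ : ℂ) = E₄ τ ^ 3 / discriminant τ := by
    field_simp
  rwa [e] at h

end Fermat.Agent.S28.AN
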