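import Fermat.Agent.S28.AN.Defs
import Fermat.Agent.S28.AN.Taylor

/-!
# S28, Part I, piece P4(a): the `q`-expansions of `Δ`, `1/Δ` and `j = E₄³/Δ` (helper4649)

`hasTExp_discriminant_base : HasTExp 1 Δ (deltaUnit ℂ)`,
`hasTExp_discriminant_inv_base : HasTExp 1 Δ⁻¹ (deltaUnit ℂ)⁻¹`,
`hasTExp_jFun_base : HasTExp 1 jFun (jqModC ℂ)` (the hypothesis `hbase` of
`hasTExp_jFun_smul_of_base` in `AN/CuspExp.lean`).
Uses `AN/Taylor.lean` (helper8728 / helper6564: Taylor series API, Euler product, `jNum`).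
-/

set_option autoImplicit false

noncomputable section

namespace Fermat.Agent.S28

open ModularCurve UpperHalfPlane Metric

/-- `exp(2πi n τ / 1) = q^n`. -/
theorem exp_eq_qParam_zpow_base (τ : ℍ) (n : ℤ) :
    Complex.exp (2 * Real.pi * Complex.I * n * (τ : ℂ) / (1 : ℕ)) =
      Function.Periodic.qParam 1 (τ : ℂ) ^ n := by
  rw [Function.Periodic.qParam, ← Complex.exp_int_mul]
  congr 1
  push_cast
  ring

/-- Shifting a convergent power series: `∑ₖ (t^s P)ₖ q^k = q^s ∑ₘ Pₘ q^m`. -/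
theorem hasSum_single_mul_ofPowerSeries (P : PowerSeries ℂ) (s : ℤ) {q v : ℂ} (hq0 : q ≠ 0)
    (h : HasSum (fun m : ℕ => PowerSeries.coeff m P * q ^ m) v) :
    HasSum (fun k : ℤ =>
      (HahnSeries.single s (1 : ℂ) * HahnSeries.ofPowerSeries ℤ ℂ P).coeff k * q ^ k)
      (q ^ s * v) := by
  have hinj : Function.Injective fun m : ℕ => (m : ℤ) + s := fun a b hab => by
    have : (a : ℤ) = b := by linarith
    exact_mod_cast this
  have hzero : ∀ k : ℤ, k ∉ Set.range (fun m : ℕ => (m : ℤ) + s) →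
      (HahnSeries.single s (1 : ℂ) * HahnSeries.ofPowerSeries ℤ ℂ P).coeff k * q ^ k = 0 := by
    intro k hk
    have hk' : k - s < 0 := by
      by_contra hcon
      exact hk ⟨(k - s).toNat, by
        have : ((k - s).toNat : ℤ) = k - s := Int.toNat_of_nonneg (by linarith)
        simp only [this]; ring⟩
    rw [HahnSeries.coeff_single_mul, one_mul, ModularCurve.ofPowerSeries_coeff_of_neg _ hk',
      zero_mul]
  refine (hinj.hasSum_iff hzero).mp ?_
  have e : ((fun k : ℤ =>
      (HahnSeries.single s (1 : ℂ) * HahnSeries.ofPowerSeries ℤ ℂ P).coeff k * q ^ k) ∘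
        fun m : ℕ => (m : ℤ) + s) = fun m : ℕ => q ^ s * (PowerSeries.coeff m P * q ^ m) := by
    funext m
    simp only [Function.comp_apply]
    rw [HahnSeries.coeff_single_mul, one_mul, add_sub_cancel_right,
      HahnSeries.ofPowerSeries_apply_coeff, zpow_add₀ hq0, zpow_natCast]
    ring
  rw [e]
  exact h.mul_left _

namespace AN

/-- `q ↦ ∏ (1 - q^n)^24`. -/
def euler24 (q : ℂ) : ℂ := eulerFun q ^ 24

theorem differentiableOn_euler24 : DifferentiableOn ℂ euler24 (ball (0 : ℂ) 1) :=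
  differentiableOn_eulerFun.fun_pow 24

theorem euler24_ne_zero {q : ℂ} (hq : ‖q‖ < 1) : euler24 q ≠ 0 :=
  pow_ne_zero _ (eulerFun_ne_zero hq)

theorem taylorPS_euler24 :
    taylorPS euler24 = PowerSeries.map (Int.castRingHom ℂ) ModularCurve.dedekindEtaUnit := by
  rw [show euler24 = fun q => eulerFun q ^ 24 from rfl, taylorPS_pow differentiableOn_eulerFun,
    taylorPS_eulerFun, ModularCurve.dedekindEtaUnit, map_pow]

/-- `q ↦ ∏ (1 - q^n)^(-24)`. -/
def euler24Inv (q : ℂ) : ℂ := (euler24 q)⁻¹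

theorem differentiableOn_euler24Inv : DifferentiableOn ℂ euler24Inv (ball (0 : ℂ) 1) :=
  differentiableOn_euler24.fun_inv fun q hq => euler24_ne_zero (by simpa using hq)

theorem taylorPS_euler24Inv :
    taylorPS euler24Inv = PowerSeries.map (Int.castRingHom ℂ) ModularCurve.dedekindEtaUnitInv := by
  have hmul : (euler24 * euler24Inv) =ᶠ[nhds 0] (fun _ => (1 : ℂ)) := by
    filter_upwards [ball_mem_nhds (0 : ℂ) one_pos] with q hq
    simp only [Pi.mul_apply, euler24Inv]
    exact mul_inv_cancel₀ (euler24_ne_zero (by simpa using hq))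
  have h1 : taylorPS euler24 * taylorPS euler24Inv = 1 := by
    rw [← taylorPS_mul differentiableOn_euler24 differentiableOn_euler24Inv, taylorPS_congr hmul,
      taylorPS_const_one]
  have h2 := congrArg (PowerSeries.map (Int.castRingHom ℂ)) ModularCurve.dedekindEtaUnit_mul_inv
  rw [map_mul, map_one] at h2
  rw [taylorPS_euler24] at h1
  calc taylorPS euler24Inv
      = (PowerSeries.map (Int.castRingHom ℂ) ModularCurve.dedekindEtaUnitInv *
          PowerSeries.map (Int.castRingHom ℂ) ModularCurve.dedekindEtaUnit) * taylorPS euler24Inv := by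
        rw [mul_comm (PowerSeries.map (Int.castRingHom ℂ) ModularCurve.dedekindEtaUnitInv), h2,
          one_mul]
    _ = PowerSeries.map (Int.castRingHom ℂ) ModularCurve.dedekindEtaUnitInv := by
        rw [mul_assoc, h1, mul_one]

theorem discriminant_eq_qParam_mul_euler24 (τ : ℍ) :
    ModularForm.discriminant τ =
      Function.Periodic.qParam 1 (τ : ℂ) * euler24 (Function.Periodic.qParam 1 (τ : ℂ)) := by
  have hq : ‖Function.Periodic.qParam 1 (τ : ℂ)‖ < 1 :=
    Function.Periodic.norm_qParam_lt_one one_pos τ.im_pos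
  rw [ModularForm.discriminant_eq_q_prod, euler24, eulerFun,
    ← (ModularForm.multipliable_one_sub_pow hq).tprod_pow 24]

end AN

open AN in
/-- `Δ` has the `q`-expansion `deltaUnit ℂ`. -/
theorem hasTExp_discriminant_base :
    HasTExp 1 (fun τ : ℍ => ModularForm.discriminant τ) (deltaUnit ℂ : LaurentSeries ℂ) := by
  intro τ
  have hq : ‖Function.Periodic.qParam 1 (τ : ℂ)‖ < 1 :=
    Function.Periodic.norm_qParam_lt_one one_pos τ.im_pos
  have hq0 : Function.Periodic.qParam 1 (τ : ℂ) ≠ 0 := Function.Periodic.qParam_ne_zero _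
  have h := taylorPS_hasSum differentiableOn_euler24 hq
  rw [taylorPS_euler24] at h
  have h2 := hasSum_single_mul_ofPowerSeries _ 1 hq0 h
  rw [zpow_one, ← discriminant_eq_qParam_mul_euler24] at h2
  simp only [exp_eq_qParam_zpow_base]
  exact h2

open AN in
/-- `1/Δ` has the `q`-expansion `(deltaUnit ℂ)⁻¹`. -/
theorem hasTExp_discriminant_inv_base :
    HasTExp 1 (fun τ : ℍ => (ModularForm.discriminant τ)⁻¹)
      (((deltaUnit ℂ)⁻¹ : (LaurentSeries ℂ)ˣ) : LaurentSeries ℂ) := by
  intro τ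
  have hq : ‖Function.Periodic.qParam 1 (τ : ℂ)‖ < 1 :=
    Function.Periodic.norm_qParam_lt_one one_pos τ.im_pos
  have hq0 : Function.Periodic.qParam 1 (τ : ℂ) ≠ 0 := Function.Periodic.qParam_ne_zero _
  have h := taylorPS_hasSum differentiableOn_euler24Inv hq
  rw [taylorPS_euler24Inv] at h
  have h2 := hasSum_single_mul_ofPowerSeries _ (-1) hq0 h
  have e : Function.Periodic.qParam 1 (τ : ℂ) ^ (-1 : ℤ) *
      euler24Inv (Function.Periodic.qParam 1 (τ : ℂ)) = (ModularForm.discriminant τ)⁻¹ := by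
    rw [discriminant_eq_qParam_mul_euler24, euler24Inv, zpow_neg_one, mul_inv]
  rw [e] at h2
  simp only [exp_eq_qParam_zpow_base]
  exact h2

/-- `j = E₄³/Δ` has the `q`-expansion `jqModC ℂ`. -/
theorem hasTExp_jFun_base : HasTExp 1 jFun (jqModC ℂ) := by
  intro τ
  have h := AN.hasSum_jq_qParam τ
  simp only [exp_eq_qParam_zpow_base]
  have e : ∀ k : ℤ, (jqModC ℂ).coeff k = ((ModularCurve.jq.coeff k : ℚ) : ℂ) := by
    intro k
    have h1 : jqModC ℂ = (jqModC ℚ).map (algebraMap ℚ ℂ) := (map_jqModC (algebraMap ℚ ℂ)).symm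
    rw [h1, HahnSeries.map_coeff, jqModC_rat]
    rfl
  simp only [e]
  exact h

end Fermat.Agent.S28
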