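import Fermat.Agent.S28.AN.TExp
import Fermat.Agent.S28.AN.Bridge

/-!
# S28, Part I, sub-pieces C1–C5 of P4 (cusp expansions) — complete proofs (helper9928)

Exact statements of helper5428's stub `AN/CuspLemmas.lean` (same names, namespace
`Fermat.Agent.S28`).  Auxiliary declarations live in the namespace `Fermat.Agent.S28.CL`.

Sources: C1 and C3 adapt helper9448's `CuspTransform.lean`/`Subst.lean`/`CuspExp.lean` to the
definition of `cuspPt` in `AN/Defs.lean`; C2 is helper4649's `AN/Bridge.lean` (on top of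
`AN/Taylor.lean`, helper8728/helper6564); C4, C5 are new.
-/

set_option autoImplicit false

noncomputable section

namespace Fermat.Agent.S28

open ModularCurve UpperHalfPlane Polynomial ModularForm EisensteinSeries CongruenceSubgroup
open scoped MatrixGroups Manifold

namespace CL

/-! ## Arithmetic of the cusp data -/

theorem cuspA_pos (γ : SL(2, ℤ)) {d : ℕ} (hd : 0 < d) : 0 < cuspA γ d :=
  Nat.gcd_pos_of_pos_left _ hd

theorem cuspA_dvd (γ : SL(2, ℤ)) (d : ℕ) : cuspA γ d ∣ d := Nat.gcd_dvd_left _ _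

theorem cuspA_mul_cuspDelta (γ : SL(2, ℤ)) (d : ℕ) : cuspA γ d * cuspDelta γ d = d :=
  Nat.mul_div_cancel' (cuspA_dvd γ d)

theorem cuspDelta_pos (γ : SL(2, ℤ)) {d : ℕ} (hd : 0 < d) : 0 < cuspDelta γ d :=
  Nat.div_pos (Nat.le_of_dvd hd (cuspA_dvd γ d)) (cuspA_pos γ hd)

theorem cuspDelta_dvd_self (γ : SL(2, ℤ)) (d : ℕ) : cuspDelta γ d ∣ d :=
  Dvd.intro_left _ (cuspA_mul_cuspDelta γ d)

theorem cuspA_dvd_entry (γ : SL(2, ℤ)) (d : ℕ) : (cuspA γ d : ℤ) ∣ γ 1 0 := by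
  have h : cuspA γ d ∣ (γ 1 0).natAbs := Nat.gcd_dvd_right _ _
  exact Int.natCast_dvd.mpr h

/-- `r = z / a`. -/
def cuspR (γ : SL(2, ℤ)) (d : ℕ) : ℤ := γ 1 0 / (cuspA γ d : ℤ)

theorem cuspA_mul_cuspR (γ : SL(2, ℤ)) (d : ℕ) : (cuspA γ d : ℤ) * cuspR γ d = γ 1 0 :=
  Int.mul_ediv_cancel' (cuspA_dvd_entry γ d)

theorem cuspR_coprime (γ : SL(2, ℤ)) {d : ℕ} (hd : 0 < d) :
    Int.gcd (cuspR γ d) (cuspDelta γ d : ℤ) = 1 := by
  have ha := cuspA_pos γ hd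
  have h1 : Nat.gcd d (γ 1 0).natAbs = cuspA γ d := rfl
  have h2 : (γ 1 0).natAbs = cuspA γ d * (cuspR γ d).natAbs := by
    rw [← cuspA_mul_cuspR γ d, Int.natAbs_mul, Int.natAbs_natCast]
  have h3 : Nat.gcd (cuspA γ d * cuspDelta γ d) (cuspA γ d * (cuspR γ d).natAbs) = cuspA γ d := by
    rw [cuspA_mul_cuspDelta, ← h2]
    exact h1
  rw [Nat.gcd_mul_left] at h3
  have h4 : Nat.gcd (cuspDelta γ d) (cuspR γ d).natAbs = 1 :=
    Nat.eq_of_mul_eq_mul_left ha (by rw [h3, mul_one])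
  rw [Int.gcd_comm]
  simpa [Int.gcd] using h4

/-- `s = (w - r b) / δ`. -/
def cuspS (γ : SL(2, ℤ)) (d : ℕ) : ℤ :=
  γ 1 1 * Int.gcdB (cuspR γ d) (cuspDelta γ d : ℤ)

theorem cuspS_spec (γ : SL(2, ℤ)) {d : ℕ} (hd : 0 < d) :
    cuspR γ d * cuspB γ d + cuspS γ d * (cuspDelta γ d : ℤ) = γ 1 1 := by
  have h := Int.gcd_eq_gcd_ab (cuspR γ d) (cuspDelta γ d : ℤ)
  rw [cuspR_coprime γ hd] at h
  have hB : cuspB γ d = γ 1 1 * Int.gcdA (cuspR γ d) (cuspDelta γ d : ℤ) := rfl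
  rw [hB, cuspS]
  push_cast at h
  linear_combination (-(γ 1 1)) * h

theorem det_entries (γ : SL(2, ℤ)) : γ 0 0 * γ 1 1 - γ 0 1 * γ 1 0 = 1 := by
  have := γ.det_coe
  rw [Matrix.det_fin_two] at this
  exact this

/-- The matrix `γ'` with `diag(d, 1) * γ = γ' * [a b; 0 δ]`. -/
def cuspMat (γ : SL(2, ℤ)) (d : ℕ) (hd : 0 < d) : SL(2, ℤ) :=
  ⟨!![(cuspDelta γ d : ℤ) * γ 0 0, (cuspA γ d : ℤ) * γ 0 1 - γ 0 0 * cuspB γ d;
      cuspR γ d, cuspS γ d], by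
    rw [Matrix.det_fin_two_of]
    have h1 := cuspS_spec γ hd
    have h2 := cuspA_mul_cuspR γ d
    have h3 := det_entries γ
    linear_combination (γ 0 0) * h1 + (-(γ 0 1)) * h2 + h3⟩

@[simp] theorem cuspMat_one_zero (γ : SL(2, ℤ)) (d : ℕ) (hd : 0 < d) :
    cuspMat γ d hd 1 0 = cuspR γ d := rfl

@[simp] theorem cuspMat_one_one (γ : SL(2, ℤ)) (d : ℕ) (hd : 0 < d) :
    cuspMat γ d hd 1 1 = cuspS γ d := rfl

@[simp] theorem cuspMat_zero_zero (γ : SL(2, ℤ)) (d : ℕ) (hd : 0 < d) :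
    cuspMat γ d hd 0 0 = (cuspDelta γ d : ℤ) * γ 0 0 := rfl

@[simp] theorem cuspMat_zero_one (γ : SL(2, ℤ)) (d : ℕ) (hd : 0 < d) :
    cuspMat γ d hd 0 1 = (cuspA γ d : ℤ) * γ 0 1 - γ 0 0 * cuspB γ d := rfl

/-! ## The point `(a τ + b) / δ` -/

theorem coe_cuspPt (γ : SL(2, ℤ)) {d : ℕ} (hd : 0 < d) (τ : ℍ) :
    ((cuspPt γ d τ : ℍ) : ℂ)
      = ((cuspA γ d : ℂ) * (τ : ℂ) + (cuspB γ d : ℂ)) / (cuspDelta γ d : ℂ) := by
  rw [cuspPt, dif_pos ⟨cuspA_pos γ hd, cuspDelta_pos γ hd⟩]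

theorem coe_scaleH {d : ℕ} (hd : 0 < d) (τ : ℍ) : ((scaleH d τ : ℍ) : ℂ) = (d : ℂ) * (τ : ℂ) := by
  simp [scaleH, hd]

theorem denom_SL (γ : SL(2, ℤ)) (τ : ℍ) :
    denom (γ : GL (Fin 2) ℝ) τ = (γ 1 0 : ℂ) * (τ : ℂ) + (γ 1 1 : ℂ) := by
  simp [denom]

theorem coe_smul_SL (γ : SL(2, ℤ)) (τ : ℍ) :
    ((γ • τ : ℍ) : ℂ) = ((γ 0 0 : ℂ) * (τ : ℂ) + (γ 0 1 : ℂ)) /
      ((γ 1 0 : ℂ) * (τ : ℂ) + (γ 1 1 : ℂ)) := by
  rw [UpperHalfPlane.coe_specialLinearGroup_apply]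
  simp

theorem denom_SL_ne_zero (γ : SL(2, ℤ)) (τ : ℍ) :
    (γ 1 0 : ℂ) * (τ : ℂ) + (γ 1 1 : ℂ) ≠ 0 := by
  rw [← denom_SL]
  exact denom_ne_zero _ _

/-- The denominator of `cuspMat` at `cuspPt` is `(zτ + w)/δ`. -/
theorem denom_cuspMat (γ : SL(2, ℤ)) {d : ℕ} (hd : 0 < d) (τ : ℍ) :
    (cuspMat γ d hd 1 0 : ℂ) * (cuspPt γ d τ : ℂ) + (cuspMat γ d hd 1 1 : ℂ)
      = ((γ 1 0 : ℂ) * (τ : ℂ) + (γ 1 1 : ℂ)) / (cuspDelta γ d : ℂ) := by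
  have hδ : (cuspDelta γ d : ℂ) ≠ 0 := Nat.cast_ne_zero.mpr (cuspDelta_pos γ hd).ne'
  have h1 : ((cuspR γ d : ℤ) : ℂ) * (cuspB γ d : ℂ) + (cuspS γ d : ℂ) * (cuspDelta γ d : ℂ)
      = (γ 1 1 : ℂ) := by exact_mod_cast congrArg (Int.cast : ℤ → ℂ) (cuspS_spec γ hd)
  have h2 : (cuspA γ d : ℂ) * (cuspR γ d : ℂ) = (γ 1 0 : ℂ) := by
    exact_mod_cast congrArg (Int.cast : ℤ → ℂ) (cuspA_mul_cuspR γ d)
  rw [coe_cuspPt γ hd, cuspMat_one_zero, cuspMat_one_one, eq_div_iff hδ]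
  field_simp
  linear_combination (τ : ℂ) * h2 + h1

/-- `d · (γ • τ) = γ' • ((a τ + b)/δ)`. -/
theorem scaleH_smul_eq (γ : SL(2, ℤ)) {d : ℕ} (hd : 0 < d) (τ : ℍ) :
    scaleH d (γ • τ) = cuspMat γ d hd • cuspPt γ d τ := by
  have hδ : (cuspDelta γ d : ℂ) ≠ 0 := Nat.cast_ne_zero.mpr (cuspDelta_pos γ hd).ne'
  have hden := denom_SL_ne_zero γ τ
  have hd' : ((cuspA γ d : ℂ)) * (cuspDelta γ d : ℂ) = (d : ℂ) := by
    exact_mod_cast congrArg (Nat.cast : ℕ → ℂ) (cuspA_mul_cuspDelta γ d)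
  apply UpperHalfPlane.ext
  rw [coe_scaleH hd, coe_smul_SL, coe_smul_SL, denom_cuspMat γ hd, cuspMat_zero_zero,
    cuspMat_zero_one, coe_cuspPt γ hd]
  push_cast
  have hnum : (cuspDelta γ d : ℂ) * (γ 0 0 : ℂ) *
        (((cuspA γ d : ℂ) * (τ : ℂ) + (cuspB γ d : ℂ)) / (cuspDelta γ d : ℂ)) +
      ((cuspA γ d : ℂ) * (γ 0 1 : ℂ) - (γ 0 0 : ℂ) * (cuspB γ d : ℂ))
      = (cuspA γ d : ℂ) * ((γ 0 0 : ℂ) * (τ : ℂ) + (γ 0 1 : ℂ)) := by
    field_simp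
    ring
  rw [hnum, ← hd', div_div_eq_mul_div]
  ring

theorem E4_smul_SL (γ : SL(2, ℤ)) (τ : ℍ) :
    E₄ (γ • τ) = denom (γ : GL (Fin 2) ℝ) τ ^ (4 : ℤ) * E₄ τ := by
  have : SlashInvariantFormClass (ModularForm 𝒮ℒ 4) Γ(1) 4 := Gamma_one_coe_eq_SL ▸ inferInstance
  exact SlashInvariantForm.slash_action_eqn_SL'' E₄ (mem_Gamma_one γ) τ

theorem discriminant_smul_SL (γ : SL(2, ℤ)) (τ : ℍ) :
    ModularForm.discriminant (γ • τ) =
      denom (γ : GL (Fin 2) ℝ) τ ^ (12 : ℤ) * ModularForm.discriminant τ := by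
  have : SlashInvariantFormClass (CuspForm 𝒮ℒ 12) Γ(1) 12 := Gamma_one_coe_eq_SL ▸ inferInstance
  exact SlashInvariantForm.slash_action_eqn_SL'' CuspForm.discriminant (mem_Gamma_one γ) τ

/-- `j` is `SL(2, ℤ)`-invariant. -/
theorem jFun_smul (γ : SL(2, ℤ)) (τ : ℍ) : jFun (γ • τ) = jFun τ := by
  have hd : denom (γ : GL (Fin 2) ℝ) τ ≠ 0 := denom_ne_zero _ _
  have hΔ := ModularForm.discriminant_ne_zero τ
  rw [jFun, jFun, E4_smul_SL, discriminant_smul_SL]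
  have h12 : denom (γ : GL (Fin 2) ℝ) τ ^ (12 : ℤ) = (denom (γ : GL (Fin 2) ℝ) τ ^ (4 : ℤ)) ^ 3 := by
    rw [← zpow_natCast, ← zpow_mul]; norm_num
  rw [h12, mul_pow]
  field_simp

/-! ## Substitution -/

section Formal

variable {R : Type*} [CommRing R]

theorem expandHom_coeff_mul {m : ℕ} (hm : 0 < m) (f : LaurentSeries R) (k : ℤ) :
    (expandHom R m f).coeff ((m : ℤ) * k) = f.coeff k := by
  have : NeZero m := ⟨hm.ne'⟩
  rw [expandHom_eq, qExpand_coeff_mul]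

theorem expandHom_coeff_of_not_dvd {m : ℕ} (hm : 0 < m) (f : LaurentSeries R) {k : ℤ}
    (hk : ¬ (m : ℤ) ∣ k) : (expandHom R m f).coeff k = 0 := by
  have : NeZero m := ⟨hm.ne'⟩
  rw [expandHom_eq, qExpand_coeff_of_not_dvd m f hk]

theorem substHom_coeff_mul (c : Rˣ) {m : ℕ} (hm : 0 < m) (f : LaurentSeries R) (k : ℤ) :
    (substHom c m f).coeff ((m : ℤ) * k) = ((c ^ k : Rˣ) : R) * f.coeff k := by
  rw [substHom, RingHom.comp_apply, expandHom_coeff_mul hm, twistHom_coeff]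

theorem substHom_coeff_of_not_dvd (c : Rˣ) {m : ℕ} (hm : 0 < m) (f : LaurentSeries R) {k : ℤ}
    (hk : ¬ (m : ℤ) ∣ k) : (substHom c m f).coeff k = 0 := by
  rw [substHom, RingHom.comp_apply, expandHom_coeff_of_not_dvd hm _ hk]

theorem twistHom_one (f : LaurentSeries R) : twistHom (1 : Rˣ) f = f := by
  ext n
  rw [twistHom_coeff, one_zpow, Units.val_one, one_mul]

end Formal

/-- **Substitution lemma** (general form). -/
theorem hasTExp_subst {F : ℍ → ℂ} {f : LaurentSeries ℂ} (hF : HasTExp 1 F f) (N : ℕ)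
    (c : ℂˣ) {m : ℕ} (hm : 0 < m) (σ : ℍ → ℍ)
    (hσ : ∀ τ : ℍ, Complex.exp (2 * Real.pi * Complex.I * (σ τ : ℂ))
      = (c : ℂ) * Complex.exp (2 * Real.pi * Complex.I * m * (τ : ℂ) / N)) :
    HasTExp N (fun τ => F (σ τ)) (substHom c m f) := by
  intro τ
  have h1 := hF (σ τ)
  have hinj : Function.Injective (fun k : ℤ => (m : ℤ) * k) :=
    mul_right_injective₀ (by exact_mod_cast hm.ne')
  refine (hinj.hasSum_iff ?_).mp ?_
  · intro n hn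
    have hnd : ¬ (m : ℤ) ∣ n := fun ⟨k, hk⟩ => hn ⟨k, hk.symm⟩
    rw [substHom_coeff_of_not_dvd c hm f hnd, zero_mul]
  · convert h1 using 1
    funext k
    simp only [Function.comp_apply]
    rw [substHom_coeff_mul c hm]
    have e1 : Complex.exp (2 * Real.pi * Complex.I * (k : ℂ) * (σ τ : ℂ) / ((1 : ℕ) : ℂ))
        = Complex.exp (2 * Real.pi * Complex.I * (σ τ : ℂ)) ^ k := by
      rw [← Complex.exp_int_mul]
      congr 1
      push_cast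
      ring
    have e2 : Complex.exp (2 * Real.pi * Complex.I * (((m : ℤ) * k : ℤ) : ℂ) * (τ : ℂ) / (N : ℂ))
        = Complex.exp (2 * Real.pi * Complex.I * m * (τ : ℂ) / N) ^ k := by
      rw [← Complex.exp_int_mul]
      congr 1
      push_cast
      ring
    rw [e1, e2, hσ τ, mul_zpow, Units.val_zpow_eq_zpow_val]
    ring

theorem cuspDelta_dvd_of_dvd (γ : SL(2, ℤ)) {N d : ℕ} (hd : d ∣ N) : cuspDelta γ d ∣ N :=
  (cuspDelta_dvd_self γ d).trans hd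

theorem cuspM_pos (N : ℕ) [NeZero N] (γ : SL(2, ℤ)) {d : ℕ} (hd : d ∣ N) : 0 < cuspM N γ d := by
  have hN : 0 < N := Nat.pos_of_ne_zero (NeZero.ne N)
  have hd0 : 0 < d := Nat.pos_of_dvd_of_pos hd hN
  exact Nat.mul_pos (Nat.div_pos (Nat.le_of_dvd hN (cuspDelta_dvd_of_dvd γ hd))
    (cuspDelta_pos γ hd0)) (cuspA_pos γ hd0)

theorem coe_zetaU_zpow (N : ℕ) [NeZero N] (k : ℤ) :
    (((zetaU N ^ k : (RN N)ˣ) : RN N) : ℂ) = Complex.exp (2 * Real.pi * Complex.I * k / N) := by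
  have h1 : (((zetaU N ^ k : (RN N)ˣ) : RN N) : ℂ)
      = ((Units.map ((RN N).subtype : RN N →* ℂ) (zetaU N)) ^ k : ℂˣ) := by
    rw [← map_zpow]
    rfl
  rw [h1, Units.val_zpow_eq_zpow_val]
  show zetaC N ^ k = _
  rw [zetaC, ← Complex.exp_int_mul]
  congr 1
  ring

/-- `exp(2πi (aτ+b)/δ) = ζ_N^((N/δ) b) * exp(2πi ((N/δ) a) τ / N)`. -/
theorem exp_cuspPt (N : ℕ) [NeZero N] (γ : SL(2, ℤ)) {d : ℕ} (hd : d ∣ N) (τ : ℍ) :
    Complex.exp (2 * Real.pi * Complex.I * (cuspPt γ d τ : ℂ))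
      = (((cuspZ N γ d : (RN N)ˣ) : RN N) : ℂ) *
        Complex.exp (2 * Real.pi * Complex.I * (cuspM N γ d : ℕ) * (τ : ℂ) / N) := by
  have hN : 0 < N := Nat.pos_of_ne_zero (NeZero.ne N)
  have hd0 : 0 < d := Nat.pos_of_dvd_of_pos hd hN
  have hNC : (N : ℂ) ≠ 0 := Nat.cast_ne_zero.mpr hN.ne'
  have hδ : (cuspDelta γ d : ℂ) ≠ 0 := Nat.cast_ne_zero.mpr (cuspDelta_pos γ hd0).ne'
  have hdiv : ((N / cuspDelta γ d : ℕ) : ℂ) * (cuspDelta γ d : ℂ) = (N : ℂ) := by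
    exact_mod_cast congrArg (Nat.cast : ℕ → ℂ) (Nat.div_mul_cancel (cuspDelta_dvd_of_dvd γ hd))
  have hdiv' : ((N / cuspDelta γ d : ℕ) : ℂ) = (N : ℂ) / (cuspDelta γ d : ℂ) := by
    rw [eq_div_iff hδ, hdiv]
  have hcast : ((((N / cuspDelta γ d : ℕ) : ℤ) * cuspB γ d : ℤ) : ℂ)
      = (N : ℂ) / (cuspDelta γ d : ℂ) * (cuspB γ d : ℂ) := by
    rw [Int.cast_mul, Int.cast_natCast, hdiv']
  have hcast' : ((N / cuspDelta γ d * cuspA γ d : ℕ) : ℂ)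
      = (N : ℂ) / (cuspDelta γ d : ℂ) * (cuspA γ d : ℂ) := by
    rw [Nat.cast_mul, hdiv']
  rw [cuspZ, coe_zetaU_zpow, ← Complex.exp_add, coe_cuspPt γ hd0, cuspM, hcast, hcast']
  congr 1
  field_simp
  ring

/-! ## Holomorphy -/

/-- Composition of a holomorphic function on `ℍ` with a holomorphic self-map of `ℍ` given by a
function on `ℂ`. -/
theorem mdiff_comp_map {F : ℍ → ℂ} (hF : MDiff F) (σ : ℍ → ℍ) (g : ℂ → ℂ)
    (hg : DifferentiableOn ℂ g {z : ℂ | 0 < z.im}) (hσ : ∀ τ : ℍ, ((σ τ : ℍ) : ℂ) = g (τ : ℂ)) :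
    MDiff (fun τ : ℍ => F (σ τ)) := by
  rw [UpperHalfPlane.mdifferentiable_iff] at hF ⊢
  have hmaps : Set.MapsTo g {z : ℂ | 0 < z.im} {z : ℂ | 0 < z.im} := by
    intro z hz
    have h := hσ ⟨z, hz⟩
    show 0 < (g z).im
    rw [show g z = ((σ ⟨z, hz⟩ : ℍ) : ℂ) from h.symm]
    exact (σ ⟨z, hz⟩).im_pos
  refine (hF.comp hg hmaps).congr fun z hz => ?_
  have hz' : 0 < z.im := hz
  simp only [Function.comp_apply]
  rw [ofComplex_apply_of_im_pos hz']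
  have h := hσ ⟨z, hz'⟩
  have h2 : g z = ((σ ⟨z, hz'⟩ : ℍ) : ℂ) := h.symm
  rw [h2, ofComplex_apply]

theorem mdiff_comp_cuspPt {F : ℍ → ℂ} (hF : MDiff F) (γ : SL(2, ℤ)) {d : ℕ} (hd : 0 < d) :
    MDiff (fun τ : ℍ => F (cuspPt γ d τ)) := by
  refine mdiff_comp_map hF (cuspPt γ d)
    (fun z => ((cuspA γ d : ℂ) * z + (cuspB γ d : ℂ)) / (cuspDelta γ d : ℂ)) ?_
    (fun τ => coe_cuspPt γ hd τ)
  have hδ : (cuspDelta γ d : ℂ) ≠ 0 := Nat.cast_ne_zero.mpr (cuspDelta_pos γ hd).ne'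
  have : Differentiable ℂ
      (fun z : ℂ => ((cuspA γ d : ℂ) * z + (cuspB γ d : ℂ)) / (cuspDelta γ d : ℂ)) := by
    fun_prop
  exact this.differentiableOn

theorem mdiff_discriminant : MDiff (fun τ : ℍ => ModularForm.discriminant τ) :=
  ModularFormClass.holo CuspForm.discriminant

theorem mdiff_E4 : MDiff (fun τ : ℍ => E₄ τ) := ModularFormClass.holo E₄

theorem mdiff_jFun : MDiff jFun := by
  have h1 : MDiff (fun τ : ℍ => E₄ τ * E₄ τ * E₄ τ) := (mdiff_E4.mul mdiff_E4).mul mdiff_E4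
  have h2 : MDiff (fun τ : ℍ => (ModularForm.discriminant τ)⁻¹) := by
    have hd := mdiff_discriminant
    rw [UpperHalfPlane.mdifferentiable_iff] at hd ⊢
    exact (hd.inv fun z _ => ModularForm.discriminant_ne_zero _).congr fun z _ => rfl
  have h3 : MDiff (fun τ : ℍ => E₄ τ * E₄ τ * E₄ τ * (ModularForm.discriminant τ)⁻¹) := h1.mul h2
  have heq : jFun = fun τ : ℍ => E₄ τ * E₄ τ * E₄ τ * (ModularForm.discriminant τ)⁻¹ := by
    funext τ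
    rw [jFun, div_eq_mul_inv]
    ring
  rw [heq]
  exact h3

end CL

/-! ## C1: transformation behaviour (Hermite normal form + modularity of `Δ`, `E₄`) -/

/-- **C1a.** `Δ(γτ) = (zτ + w)^12 Δ(τ)`. -/
theorem discriminant_smul_eq (γ : SL(2, ℤ)) (τ : ℍ) :
    ModularForm.discriminant (γ • τ) =
      (((γ 1 0 : ℤ) : ℂ) * (τ : ℂ) + ((γ 1 1 : ℤ) : ℂ)) ^ 12 * ModularForm.discriminant τ := by
  rw [CL.discriminant_smul_SL, CL.denom_SL]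
  norm_cast

/-- **C1b.** `Δ(d · γτ) = ((zτ + w)/δ)^12 Δ((aτ + b)/δ)`. -/
theorem discriminant_scaleH_smul (γ : SL(2, ℤ)) (d : ℕ) (hd : 0 < d) (τ : ℍ) :
    ModularForm.discriminant (scaleH d (γ • τ)) =
      ((((γ 1 0 : ℤ) : ℂ) * (τ : ℂ) + ((γ 1 1 : ℤ) : ℂ)) / (cuspDelta γ d : ℂ)) ^ 12 *
        ModularForm.discriminant (cuspPt γ d τ) := by
  rw [CL.scaleH_smul_eq γ hd, CL.discriminant_smul_SL, CL.denom_SL, CL.denom_cuspMat γ hd]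
  norm_cast

/-- **C1c.** `j(d · γτ) = j((aτ + b)/δ)`. -/
theorem jFun_scaleH_smul (γ : SL(2, ℤ)) (d : ℕ) (hd : 0 < d) (τ : ℍ) :
    jFun (scaleH d (γ • τ)) = jFun (cuspPt γ d τ) := by
  rw [CL.scaleH_smul_eq γ hd, CL.jFun_smul]

/-- **C1d.** `zτ + w ≠ 0`. -/
theorem denom_ne_zero' (γ : SL(2, ℤ)) (τ : ℍ) :
    ((γ 1 0 : ℤ) : ℂ) * (τ : ℂ) + ((γ 1 1 : ℤ) : ℂ) ≠ 0 :=
  CL.denom_SL_ne_zero γ τ

/-! ## C2: `q`-expansion bridge (analytic `Δ`, `1/Δ`, `j` versus the Prelude's formal series) -/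

/-- **C2a.** `Δ(τ) = ∑ τ(n) qⁿ` with the formal `deltaUnit`. -/
theorem hasTExp_discriminant :
    HasTExp 1 ModularForm.discriminant (deltaUnit ℂ : LaurentSeries ℂ) :=
  hasTExp_discriminant_base

/-- **C2b.** `1/Δ(τ)` is the sum of the formal inverse of `deltaUnit`. -/
theorem hasTExp_discriminant_inv :
    HasTExp 1 (fun τ : ℍ => (ModularForm.discriminant τ)⁻¹)
      (((deltaUnit ℂ)⁻¹ : (LaurentSeries ℂ)ˣ) : LaurentSeries ℂ) :=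
  hasTExp_discriminant_inv_base

/-- **C2c.** `j(τ) = E₄³/Δ` is the sum of the Prelude's formal `jqModC ℂ`. -/
theorem hasTExp_jFun : HasTExp 1 jFun (jqModC ℂ) :=
  hasTExp_jFun_base

/-! ## C3: substitution -/

/-- **C3a.** `F(τ) = ∑ fₙ qⁿ` implies `F(τ) = ∑ fₙ t^(N n)`, `t = exp(2πiτ/N)`. -/
theorem HasTExp.expand (N : ℕ) [NeZero N] {F : ℍ → ℂ} {f : LaurentSeries ℂ} (hF : HasTExp 1 F f) :
    HasTExp N F (qExpand ℂ N f) := by
  have hN : 0 < N := Nat.pos_of_ne_zero (NeZero.ne N)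
  have hNC : (N : ℂ) ≠ 0 := Nat.cast_ne_zero.mpr hN.ne'
  have h := CL.hasTExp_subst hF N 1 hN id (fun τ => by
    rw [Units.val_one, one_mul, id]
    congr 1
    field_simp)
  have e : substHom (1 : ℂˣ) N f = qExpand ℂ N f := by
    rw [substHom, RingHom.comp_apply, CL.twistHom_one, expandHom_eq]
  rw [e] at h
  exact h

/-- **C3b.** `F(τ) = ∑ fₙ qⁿ` implies `F((aτ+b)/δ) = ∑ fₙ ζ_δ^(b n) t^((N/δ) a n)`. -/
theorem HasTExp.subst (N : ℕ) [NeZero N] {F : ℍ → ℂ} {f : LaurentSeries ℂ} (hF : HasTExp 1 F f)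
    (γ : SL(2, ℤ)) (d : ℕ) (hd : d ∣ N) :
    HasTExp N (fun τ : ℍ => F (cuspPt γ d τ))
      (substHom (Units.map (RN N).subtype.toMonoidHom (cuspZ N γ d)) (cuspM N γ d) f) :=
  CL.hasTExp_subst hF N (Units.map (RN N).subtype.toMonoidHom (cuspZ N γ d)) (CL.cuspM_pos N γ hd)
    (cuspPt γ d) (fun τ => CL.exp_cuspPt N γ hd τ)

/-! ## C4: arithmetic -/

/-- **C4.** `∑_{d ∣ N} d μ(N/d) = φ(N)`. -/
theorem sum_divisors_mul_moebius (N : ℕ) [NeZero N] :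
    ∑ d ∈ N.divisors, (d : ℤ) * ArithmeticFunction.moebius (N / d) = (N.totient : ℤ) := by
  have hN : 0 < N := Nat.pos_of_ne_zero (NeZero.ne N)
  have key := (ArithmeticFunction.sum_eq_iff_sum_mul_moebius_eq
    (f := fun n : ℕ => (n.totient : ℤ)) (g := fun n : ℕ => (n : ℤ))).mp
    (fun n _ => by
      have := Nat.sum_totient n
      exact_mod_cast this) N hN
  simp only [Int.cast_id] at key
  rw [← key, Nat.sum_divisorsAntidiagonal'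
    (f := fun a b : ℕ => (ArithmeticFunction.moebius a : ℤ) * (b : ℤ))]
  exact Finset.sum_congr rfl fun d _ => mul_comm _ _

/-! ## C5: holomorphy -/

/-- **C5b.** -/
theorem mdiff_inv {F : ℍ → ℂ} (hF : MDiff F) (h0 : ∀ τ, F τ ≠ 0) :
    MDiff (fun τ : ℍ => (F τ)⁻¹) := by
  rw [UpperHalfPlane.mdifferentiable_iff] at hF ⊢
  exact (hF.inv fun z _ => h0 _).congr fun z _ => rfl

/-- **C5a.** -/
theorem mdiff_discriminant_scaleH_smul (γ : SL(2, ℤ)) (d : ℕ) (hd : 0 < d) :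
    MDiff (fun τ : ℍ => ModularForm.discriminant (scaleH d (γ • τ))) := by
  have hδ : (cuspDelta γ d : ℂ) ≠ 0 := Nat.cast_ne_zero.mpr (CL.cuspDelta_pos γ hd).ne'
  have h1 : MDiff (fun τ : ℍ => ModularForm.discriminant (cuspPt γ d τ)) :=
    CL.mdiff_comp_cuspPt CL.mdiff_discriminant γ hd
  have h2 : MDiff (fun τ : ℍ =>
      ((((γ 1 0 : ℤ) : ℂ) * (τ : ℂ) + ((γ 1 1 : ℤ) : ℂ)) / (cuspDelta γ d : ℂ)) ^ 12) := by
    have hdiff : Differentiable ℂ (fun z : ℂ =>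
        ((((γ 1 0 : ℤ) : ℂ) * z + ((γ 1 1 : ℤ) : ℂ)) / (cuspDelta γ d : ℂ)) ^ 12) := by
      fun_prop
    exact (mdifferentiable_iff_differentiable.mpr hdiff).comp mdifferentiable_coe
  have h3 : MDiff (fun τ : ℍ =>
      ((((γ 1 0 : ℤ) : ℂ) * (τ : ℂ) + ((γ 1 1 : ℤ) : ℂ)) / (cuspDelta γ d : ℂ)) ^ 12 *
        ModularForm.discriminant (cuspPt γ d τ)) := h2.mul h1
  have heq : (fun τ : ℍ => ModularForm.discriminant (scaleH d (γ • τ))) = fun τ : ℍ =>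
      ((((γ 1 0 : ℤ) : ℂ) * (τ : ℂ) + ((γ 1 1 : ℤ) : ℂ)) / (cuspDelta γ d : ℂ)) ^ 12 *
        ModularForm.discriminant (cuspPt γ d τ) := by
    funext τ
    exact discriminant_scaleH_smul γ d hd τ
  rw [heq]
  exact h3

/-- **C5c.** -/
theorem mdiff_jFun_smul (γ : SL(2, ℤ)) (d : ℕ) (hd : 0 < d) :
    MDiff (fun τ : ℍ => jFun (scaleH d (γ • τ))) := by
  have h1 : MDiff (fun τ : ℍ => jFun (cuspPt γ d τ)) := CL.mdiff_comp_cuspPt CL.mdiff_jFun γ hd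
  have heq : (fun τ : ℍ => jFun (scaleH d (γ • τ))) = fun τ : ℍ => jFun (cuspPt γ d τ) := by
    funext τ
    exact jFun_scaleH_smul γ d hd τ
  rw [heq]
  exact h1

end Fermat.Agent.S28
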