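import Fermat.Agent.S28.ANDef

/-!
# S28, Part I (analytic part): definitions

Formal side: the coefficient ring `RN N = ℤ[ζ_N, 1/N] ⊆ ℂ`, the substitution `t ↦ c t^m` on Laurent
series, and for every `γ ∈ SL(2, ℤ)` the formal `t`-expansions `Ycusp N γ`, `Jcusp N γ d`
(`t = exp(2πiτ/N)`) of `y ∘ γ` and `τ ↦ j(d · γτ)`.

Analytic side: `jFun`, `yFun` on the upper half plane and the predicate `HasTExp`.

Conventions: for `γ = [x y; z w]` and `d ∣ N` write `[d 0; 0 1] γ = γ' [a b; 0 δ]` with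
`a = gcd(d, z)`, `δ = d / a`, `(z / a) b ≡ w (mod δ)`.  Then
`Δ(d γτ) = ((zτ+w)/δ)^12 Δ((aτ+b)/δ)` and `exp(2πi(aτ+b)/δ) = ζ_N^((N/δ) b) t^((N/δ) a)`.
-/

set_option autoImplicit false

noncomputable section

namespace Fermat.Agent.S28

open ModularCurve UpperHalfPlane
open scoped MatrixGroups

/-! ## The coefficient ring -/

/-- `ζ_N = exp(2πi/N)`. -/
def zetaC (N : ℕ) : ℂ := Complex.exp (2 * Real.pi * Complex.I / N)

/-- The coefficient ring `ℤ[ζ_N, 1/N] ⊆ ℂ`. -/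
def RN (N : ℕ) : Subring ℂ := Subring.closure {zetaC N, (N : ℂ)⁻¹}

theorem zetaC_mem (N : ℕ) : zetaC N ∈ RN N := Subring.subset_closure (Set.mem_insert _ _)

theorem inv_natCast_mem (N : ℕ) : (N : ℂ)⁻¹ ∈ RN N :=
  Subring.subset_closure (Set.mem_insert_of_mem _ rfl)

theorem zetaC_pow_self (N : ℕ) [NeZero N] : zetaC N ^ N = 1 := by
  rw [zetaC, ← Complex.exp_nat_mul]
  have hN : (N : ℂ) ≠ 0 := Nat.cast_ne_zero.mpr (NeZero.ne N)
  rw [mul_div_cancel₀ _ hN]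
  exact Complex.exp_two_pi_mul_I

/-- `ζ_N` as a unit of `RN N`. -/
def zetaU (N : ℕ) [NeZero N] : (RN N)ˣ where
  val := ⟨zetaC N, zetaC_mem N⟩
  inv := ⟨zetaC N ^ (N - 1), pow_mem (zetaC_mem N) _⟩
  val_inv := Subtype.ext (by
    show zetaC N * zetaC N ^ (N - 1) = 1
    rw [← pow_succ', Nat.sub_add_cancel (Nat.pos_of_ne_zero (NeZero.ne N)), zetaC_pow_self])
  inv_val := Subtype.ext (by
    show zetaC N ^ (N - 1) * zetaC N = 1
    rw [← pow_succ, Nat.sub_add_cancel (Nat.pos_of_ne_zero (NeZero.ne N)), zetaC_pow_self])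

open Classical in
/-- `1/δ` as a unit of `RN N` for `δ ∣ N` (junk `1` otherwise). -/
def invNatU (N : ℕ) [NeZero N] (δ : ℕ) : (RN N)ˣ :=
  if h : δ ∣ N then
    { val := ⟨((N / δ : ℕ) : ℂ) * (N : ℂ)⁻¹, mul_mem (natCast_mem _ _) (inv_natCast_mem N)⟩
      inv := ⟨(δ : ℂ), natCast_mem _ _⟩
      val_inv := Subtype.ext (by
        show ((N / δ : ℕ) : ℂ) * (N : ℂ)⁻¹ * (δ : ℂ) = 1
        have hN : (N : ℂ) ≠ 0 := Nat.cast_ne_zero.mpr (NeZero.ne N)
        rw [mul_right_comm, ← Nat.cast_mul, Nat.div_mul_cancel h, mul_inv_cancel₀ hN])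
      inv_val := Subtype.ext (by
        show (δ : ℂ) * (((N / δ : ℕ) : ℂ) * (N : ℂ)⁻¹) = 1
        have hN : (N : ℂ) ≠ 0 := Nat.cast_ne_zero.mpr (NeZero.ne N)
        rw [← mul_assoc, ← Nat.cast_mul, Nat.mul_div_cancel' h, mul_inv_cancel₀ hN]) }
  else 1

/-! ## Formal substitutions -/

section Formal

variable {R : Type*} [CommRing R]

/-- The twist `t ↦ c t` on Laurent series: `∑ aₙ tⁿ ↦ ∑ aₙ cⁿ tⁿ` (underlying function). -/
def twistFun (c : Rˣ) (f : LaurentSeries R) : LaurentSeries R where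
  coeff n := ((c ^ n : Rˣ) : R) * f.coeff n
  isPWO_support' := f.isPWO_support.mono (fun n hn => by
    simp only [Function.mem_support, ne_eq, HahnSeries.mem_support] at hn ⊢
    intro h; exact hn (by rw [h, mul_zero]))

@[simp] theorem twistFun_coeff (c : Rˣ) (f : LaurentSeries R) (n : ℤ) :
    (twistFun c f).coeff n = ((c ^ n : Rˣ) : R) * f.coeff n := rfl

theorem twistFun_support (c : Rˣ) (f : LaurentSeries R) :
    (twistFun c f).support = f.support := by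
  ext n
  simp only [HahnSeries.mem_support, twistFun_coeff, ne_eq, Units.mul_right_eq_zero]

theorem twistFun_mul (c : Rˣ) (f g : LaurentSeries R) :
    twistFun c (f * g) = twistFun c f * twistFun c g := by
  ext n
  rw [twistFun_coeff, HahnSeries.coeff_mul, HahnSeries.coeff_mul, Finset.mul_sum]
  have hfin : Finset.antidiagonal (twistFun c f).isPWO_support (twistFun c g).isPWO_support n
      = Finset.antidiagonal f.isPWO_support g.isPWO_support n := by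
    ext ij
    simp only [Finset.mem_antidiagonal, twistFun_support]
  rw [hfin]
  refine Finset.sum_congr rfl fun ij hij => ?_
  have hn : ij.1 + ij.2 = n := (Finset.mem_antidiagonal.mp hij).2.2
  rw [twistFun_coeff, twistFun_coeff, ← hn, zpow_add, Units.val_mul]
  ring

/-- The twist `t ↦ c t` as a ring homomorphism. -/
def twistHom (c : Rˣ) : LaurentSeries R →+* LaurentSeries R where
  toFun := twistFun c
  map_one' := by
    ext n
    rw [twistFun_coeff, HahnSeries.coeff_one]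
    split_ifs with h
    · subst h; simp
    · simp
  map_mul' := twistFun_mul c
  map_zero' := by ext n; simp
  map_add' f g := by ext n; simp [mul_add]

@[simp] theorem twistHom_coeff (c : Rˣ) (f : LaurentSeries R) (n : ℤ) :
    (twistHom c f).coeff n = ((c ^ n : Rˣ) : R) * f.coeff n := rfl

open Classical in
/-- `t ↦ t^m` (`qExpand`), total in `m` (junk `id` for `m = 0`). -/
def expandHom (R : Type*) [CommRing R] (m : ℕ) : LaurentSeries R →+* LaurentSeries R :=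
  if h : m = 0 then RingHom.id _ else haveI : NeZero m := ⟨h⟩; qExpand R m

theorem expandHom_eq (m : ℕ) [NeZero m] : expandHom R m = qExpand R m := by
  rw [expandHom, dif_neg (NeZero.ne m)]

/-- The substitution `t ↦ c t^m`: `∑ aₙ tⁿ ↦ ∑ aₙ cⁿ t^(m n)`. -/
def substHom (c : Rˣ) (m : ℕ) : LaurentSeries R →+* LaurentSeries R :=
  (expandHom R m).comp (twistHom c)

end Formal

/-! ## Cusp data and the formal expansions at the cusps -/

/-- `a = gcd(d, z)` for `γ = [x y; z w]`. -/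
def cuspA (γ : SL(2, ℤ)) (d : ℕ) : ℕ := Nat.gcd d (γ 1 0).natAbs

/-- `δ = d / a`. -/
def cuspDelta (γ : SL(2, ℤ)) (d : ℕ) : ℕ := d / cuspA γ d

/-- An integer `b` with `(z / a) b ≡ w (mod δ)`. -/
def cuspB (γ : SL(2, ℤ)) (d : ℕ) : ℤ :=
  γ 1 1 * Int.gcdA (γ 1 0 / (cuspA γ d : ℤ)) (cuspDelta γ d : ℤ)

/-- The exponent `(N / δ) a` of `t` in `exp(2πi(aτ+b)/δ) = ζ_N^((N/δ) b) t^((N/δ) a)`. -/
def cuspM (N : ℕ) (γ : SL(2, ℤ)) (d : ℕ) : ℕ := N / cuspDelta γ d * cuspA γ d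

/-- The root of unity `ζ_δ^b = ζ_N^((N/δ) b)`. -/
def cuspZ (N : ℕ) [NeZero N] (γ : SL(2, ℤ)) (d : ℕ) : (RN N)ˣ :=
  zetaU N ^ (((N / cuspDelta γ d : ℕ) : ℤ) * cuspB γ d)

/-- Formal `t`-expansion of `τ ↦ Δ(d · γτ) / (zτ + w)^12 = δ^(-12) Δ((aτ+b)/δ)`. -/
def DeltaCusp (N : ℕ) [NeZero N] (γ : SL(2, ℤ)) (d : ℕ) : (LaurentSeries (RN N))ˣ :=
  Units.map (HahnSeries.C : RN N →+* LaurentSeries (RN N)).toMonoidHom
      (invNatU N (cuspDelta γ d) ^ 12) *
    Units.map (substHom (cuspZ N γ d) (cuspM N γ d)).toMonoidHom (deltaUnit (RN N))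

/-- Formal `t`-expansion of `y ∘ γ`. -/
def Ycusp (N : ℕ) [NeZero N] (γ : SL(2, ℤ)) : (LaurentSeries (RN N))ˣ :=
  (∏ d ∈ N.divisors, DeltaCusp N γ d ^ ((d : ℤ) * ArithmeticFunction.moebius (N / d))) *
    Units.map (qExpand (RN N) N).toMonoidHom (deltaUnit (RN N)) ^ (-(N.totient : ℤ))

/-- Formal `t`-expansion of `τ ↦ j(d · γτ) = j((aτ+b)/δ)`. -/
def Jcusp (N : ℕ) [NeZero N] (γ : SL(2, ℤ)) (d : ℕ) : LaurentSeries (RN N) :=
  substHom (cuspZ N γ d) (cuspM N γ d) (jqModC (RN N))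

/-! ## Analytic side -/

/-- `τ ↦ d τ` on the upper half plane (junk `τ` for `d = 0`). -/
def scaleH (d : ℕ) (τ : ℍ) : ℍ :=
  if h : 0 < d then
    ⟨(d : ℂ) * (τ : ℂ), by
      have : ((d : ℂ) * (τ : ℂ)).im = (d : ℝ) * (τ : ℂ).im := by simp
      rw [this]
      exact mul_pos (Nat.cast_pos.mpr h) τ.coe_im_pos⟩
  else τ

/-- The point `(a τ + b) / δ` of the upper half plane (junk `τ` if `a = 0` or `δ = 0`). -/
def cuspPt (γ : SL(2, ℤ)) (d : ℕ) (τ : ℍ) : ℍ :=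
  if h : 0 < cuspA γ d ∧ 0 < cuspDelta γ d then
    ⟨((cuspA γ d : ℂ) * (τ : ℂ) + (cuspB γ d : ℂ)) / (cuspDelta γ d : ℂ), by
      have e : ((cuspA γ d : ℂ) * (τ : ℂ) + (cuspB γ d : ℂ)) / (cuspDelta γ d : ℂ) =
          (((cuspA γ d : ℝ) / (cuspDelta γ d : ℝ) : ℝ) : ℂ) * (τ : ℂ) +
            (((cuspB γ d : ℝ) / (cuspDelta γ d : ℝ) : ℝ) : ℂ) := by
        push_cast; ring
      rw [e, Complex.add_im, Complex.im_ofReal_mul, Complex.ofReal_im, add_zero]
      exact mul_pos (div_pos (Nat.cast_pos.mpr h.1) (Nat.cast_pos.mpr h.2)) τ.coe_im_pos⟩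
  else τ

/-- The analytic `j`-function `E₄³/Δ`. -/
def jFun (τ : ℍ) : ℂ := ModularForm.E₄ τ ^ 3 / ModularForm.discriminant τ

/-- The analytic modular unit `y(τ) = ∏_{d ∣ N} Δ(dτ)^(d μ(N/d)) / Δ(τ)^φ(N)`. -/
def yFun (N : ℕ) (τ : ℍ) : ℂ :=
  (∏ d ∈ N.divisors,
      ModularForm.discriminant (scaleH d τ) ^ ((d : ℤ) * ArithmeticFunction.moebius (N / d))) *
    ModularForm.discriminant τ ^ (-(N.totient : ℤ))

/-- `F : ℍ → ℂ` has the `t`-expansion `f ∈ ℂ((t))`, `t = exp(2πiτ/N)`, converging on all of `ℍ`. -/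
def HasTExp (N : ℕ) (F : ℍ → ℂ) (f : LaurentSeries ℂ) : Prop :=
  ∀ τ : ℍ, HasSum
    (fun n : ℤ => f.coeff n * Complex.exp (2 * Real.pi * Complex.I * n * (τ : ℂ) / N)) (F τ)

end Fermat.Agent.S28
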