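import Fermat.Agent.S28.Defs

/-!
# S28, Part I helper: the coefficient ring `R` for `ANData`

`nIntSubring N` is the subring of `ℂ` of numbers integral over `ℤ[1/N]`
(i.e. `c` such that `N^k * c` is an algebraic integer for some `k`).
It is the simplest valid choice for the field `ANData.R`:

* it is integral over `ℤ_(ℓ)` for every prime `ℓ ∤ N` (`nIntSubring_integral`, exactly the
  `ANData.integral` field);
* it contains all algebraic integers (in particular roots of unity) and `1/δ` for `δ ∣ N`.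
-/

set_option autoImplicit false

noncomputable section

namespace Fermat.Agent.S28

/-- Complex numbers integral over `ℤ[1/N]`. -/
def nIntSubring (N : ℕ) : Subring ℂ where
  carrier := {c | ∃ k : ℕ, IsIntegral ℤ ((N : ℂ) ^ k * c)}
  mul_mem' := by
    rintro a b ⟨k, hk⟩ ⟨m, hm⟩
    refine ⟨k + m, ?_⟩
    have : (N : ℂ) ^ (k + m) * (a * b) = ((N : ℂ) ^ k * a) * ((N : ℂ) ^ m * b) := by ring
    rw [this]
    exact hk.mul hm
  one_mem' := ⟨0, by simpa using isIntegral_one⟩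
  add_mem' := by
    rintro a b ⟨k, hk⟩ ⟨m, hm⟩
    refine ⟨k + m, ?_⟩
    have : (N : ℂ) ^ (k + m) * (a + b) =
        (N : ℂ) ^ m * ((N : ℂ) ^ k * a) + (N : ℂ) ^ k * ((N : ℂ) ^ m * b) := by ring
    rw [this]
    have hN : ∀ j : ℕ, IsIntegral ℤ ((N : ℂ) ^ j) := fun j => by
      have := (isIntegral_algebraMap (R := ℤ) (A := ℂ) (x := (N : ℤ))).pow j
      simpa using this
    exact ((hN m).mul hk).add ((hN k).mul hm)
  zero_mem' := ⟨0, by simpa using isIntegral_zero⟩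
  neg_mem' := by
    rintro a ⟨k, hk⟩
    exact ⟨k, by simpa using hk.neg⟩

theorem mem_nIntSubring_iff {N : ℕ} {c : ℂ} :
    c ∈ nIntSubring N ↔ ∃ k : ℕ, IsIntegral ℤ ((N : ℂ) ^ k * c) := Iff.rfl

/-- Algebraic integers lie in `nIntSubring N`. -/
theorem mem_nIntSubring_of_isIntegral (N : ℕ) {c : ℂ} (hc : IsIntegral ℤ c) :
    c ∈ nIntSubring N := ⟨0, by simpa using hc⟩

/-- Roots of unity lie in `nIntSubring N`. -/
theorem mem_nIntSubring_of_pow_eq_one (N : ℕ) {c : ℂ} {n : ℕ} (hn : 0 < n) (hc : c ^ n = 1) :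
    c ∈ nIntSubring N :=
  mem_nIntSubring_of_isIntegral N
    ⟨Polynomial.X ^ n - 1, Polynomial.monic_X_pow_sub_C 1 hn.ne', by simp [hc]⟩

/-- `1/δ ∈ nIntSubring N` for `δ ∣ N` (`N ≠ 0`). -/
theorem inv_natCast_mem_nIntSubring {N : ℕ} (hN : N ≠ 0) {δ : ℕ} (hδ : δ ∣ N) :
    ((δ : ℂ))⁻¹ ∈ nIntSubring N := by
  obtain ⟨e, rfl⟩ := hδ
  have hδ0 : (δ : ℂ) ≠ 0 := by
    rintro h
    apply hN
    have : δ = 0 := by exact_mod_cast h
    simp [this]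
  refine ⟨1, ?_⟩
  have : ((δ * e : ℕ) : ℂ) ^ 1 * ((δ : ℂ))⁻¹ = ((e : ℤ) : ℂ) := by
    push_cast
    field_simp
  rw [this]
  exact isIntegral_algebraMap (R := ℤ) (A := ℂ) (x := (e : ℤ))

/-- The field `ANData.integral` for `R = nIntSubring N`. -/
theorem nIntSubring_integral (N : ℕ) (ℓ : ℕ) (hℓ : ℓ.Prime) (hℓN : ¬ ℓ ∣ N)
    (r : nIntSubring N) : IsIntegral (Zl ℓ) (r : ℂ) := by
  obtain ⟨k, hk⟩ := r.2
  have hN0 : N ≠ 0 := by
    rintro rfl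
    exact hℓN (dvd_zero ℓ)
  have hNk : ((N : ℚ) ^ k)⁻¹ ∈ GaloisRep.ratLocalizedAt ℓ := by
    show (((N : ℚ) ^ k)⁻¹).den.Coprime ℓ
    have hden : (((N : ℚ) ^ k)⁻¹).den ∣ N ^ k := by
      have h1 : (((N : ℚ) ^ k)⁻¹) = Rat.divInt 1 ((N ^ k : ℕ) : ℤ) := by
        rw [Rat.divInt_eq_div]; push_cast; ring
      rw [h1]
      exact_mod_cast Rat.den_dvd (1 : ℤ) ((N ^ k : ℕ) : ℤ)
    refine Nat.Coprime.coprime_dvd_left hden ?_
    exact Nat.Coprime.pow_left k ((Nat.coprime_comm.mp ((Nat.Prime.coprime_iff_not_dvd hℓ).mpr hℓN)))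
  have h2 : IsIntegral (Zl ℓ) ((N : ℂ) ^ k * (r : ℂ)) := hk.tower_top
  have h3 : IsIntegral (Zl ℓ) (algebraMap (Zl ℓ) ℂ ⟨((N : ℚ) ^ k)⁻¹, hNk⟩) := isIntegral_algebraMap
  have h4 : algebraMap (Zl ℓ) ℂ ⟨((N : ℚ) ^ k)⁻¹, hNk⟩ = ((N : ℂ) ^ k)⁻¹ := by
    show (algebraMap ℚ ℂ) (((N : ℚ) ^ k)⁻¹) = _
    simp
  have h5 : (r : ℂ) = ((N : ℂ) ^ k)⁻¹ * ((N : ℂ) ^ k * (r : ℂ)) := by
    have : (N : ℂ) ^ k ≠ 0 := pow_ne_zero _ (by exact_mod_cast hN0)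
    field_simp
  rw [h5, ← h4]
  exact h3.mul h2

end Fermat.Agent.S28
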