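import Fermat.Agent.S28.AN.Defs
import Fermat.Agent.S28.AN.NInt

/-!
# S28, Part I, piece P1: `ℤ[ζ_N, 1/N]` is integral over `ℤ_(ℓ)` for `ℓ ∤ N`
-/

set_option autoImplicit false

noncomputable section

namespace Fermat.Agent.S28

theorem RN_le_nIntSubring (N : ℕ) [NeZero N] : RN N ≤ nIntSubring N := by
  rw [RN, Subring.closure_le]
  rintro x (rfl | rfl)
  · exact mem_nIntSubring_of_pow_eq_one N (Nat.pos_of_ne_zero (NeZero.ne N)) (zetaC_pow_self N)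
  · exact inv_natCast_mem_nIntSubring (NeZero.ne N) (dvd_refl N)

/-- **P1.** `ℤ[ζ_N, 1/N]` is integral over `ℤ_(ℓ)` for `ℓ ∤ N`. -/
theorem RN_integral (N : ℕ) [NeZero N] (ℓ : ℕ) (hℓ : ℓ.Prime) (hℓN : ¬ ℓ ∣ N) (r : RN N) :
    IsIntegral (Zl ℓ) (r : ℂ) :=
  nIntSubring_integral N ℓ hℓ hℓN ⟨r, RN_le_nIntSubring N r.2⟩

end Fermat.Agent.S28
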