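import Fermat.Agent.S28.AN.Defs

/-!
# S28, Part I, piece P3: calculus of `t`-expansions (`HasTExp`)

(helper8149.)  Exact statements of helper5428's sub-skeleton (`AN/Skeleton.lean`, piece P3):
`HasTExp.one/add/neg/mul/unique/isBoundedAtImInfty`.  Helper lemmas live in `TExpAux`.
-/

set_option autoImplicit false

noncomputable section

namespace Fermat.Agent.S28

open ModularCurve UpperHalfPlane
open scoped MatrixGroups

namespace TExpAux

/-- `exp(2πi n τ / N) = t^n`, `t = 𝕢_N(τ)`. -/
theorem exp_eq_qParam_zpow (N : ℕ) (τ : ℍ) (n : ℤ) :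
    Complex.exp (2 * Real.pi * Complex.I * n * (τ : ℂ) / N) =
      Function.Periodic.qParam (N : ℝ) (τ : ℂ) ^ n := by
  rw [Function.Periodic.qParam, ← Complex.exp_int_mul]
  congr 1
  push_cast
  ring

theorem exp_add_index (N : ℕ) (τ : ℍ) (a b : ℤ) :
    Complex.exp (2 * Real.pi * Complex.I * ((a + b : ℤ) : ℂ) * (τ : ℂ) / N) =
      Complex.exp (2 * Real.pi * Complex.I * a * (τ : ℂ) / N) *
        Complex.exp (2 * Real.pi * Complex.I * b * (τ : ℂ) / N) := by
  rw [← Complex.exp_add]
  congr 1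
  push_cast
  ring

/-- The coefficient of a product of Laurent series as a (finitely supported) sum over `ℤ`. -/
theorem hasSum_coeff_mul (f g : LaurentSeries ℂ) (n : ℤ) (c : ℂ) :
    HasSum (fun a : ℤ => f.coeff a * g.coeff (n - a) * c) ((f * g).coeff n * c) := by
  classical
  rw [HahnSeries.coeff_mul, Finset.sum_mul]
  set s := Finset.antidiagonal f.isPWO_support g.isPWO_support n with hs
  have himg : ∀ a ∉ s.image Prod.fst, f.coeff a * g.coeff (n - a) * c = 0 := by
    intro a ha
    by_cases h1 : f.coeff a = 0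
    · simp [h1]
    by_cases h2 : g.coeff (n - a) = 0
    · simp [h2]
    exfalso
    apply ha
    rw [Finset.mem_image]
    refine ⟨(a, n - a), ?_, rfl⟩
    rw [hs, Finset.mem_antidiagonal]
    exact ⟨h1, h2, by simp⟩
  have key : HasSum (fun a : ℤ => f.coeff a * g.coeff (n - a) * c)
      (∑ a ∈ s.image Prod.fst, f.coeff a * g.coeff (n - a) * c) :=
    hasSum_sum_of_ne_finset_zero himg
  have hsumeq : ∑ a ∈ s.image Prod.fst, f.coeff a * g.coeff (n - a) * c =
      ∑ i ∈ s, f.coeff i.1 * g.coeff i.2 * c := by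
    rw [Finset.sum_image]
    · refine Finset.sum_congr rfl fun ij hij => ?_
      have h3 : ij.1 + ij.2 = n := (Finset.mem_antidiagonal.mp hij).2.2
      have h4 : n - ij.1 = ij.2 := by omega
      rw [h4]
    · intro x hx y hy hxy
      have hx3 : x.1 + x.2 = n := (Finset.mem_antidiagonal.mp hx).2.2
      have hy3 : y.1 + y.2 = n := (Finset.mem_antidiagonal.mp hy).2.2
      ext
      · exact hxy
      · have : x.1 = y.1 := hxy
        omega
  rw [← hsumeq]
  exact key

/-- Vanishing of the coefficients below `-(k : ℤ)` for `k` large. -/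
theorem exists_bound (f : LaurentSeries ℂ) : ∃ k : ℕ, ∀ n : ℤ, n < -(k : ℤ) → f.coeff n = 0 := by
  refine ⟨(-f.order).toNat, fun n hn => HahnSeries.coeff_eq_zero_of_lt_order ?_⟩
  have := Int.self_le_toNat (-f.order)
  omega

/-- Passing from a sum over `ℤ` to a sum over `ℕ` after clearing the pole. -/
theorem hasSum_nat_of_hasSum_int (N : ℕ) (f : LaurentSeries ℂ) (k : ℕ)
    (hk : ∀ n : ℤ, n < -(k : ℤ) → f.coeff n = 0) (τ : ℍ) (s : ℂ)
    (h : HasSum (fun n : ℤ => f.coeff n * Complex.exp (2 * Real.pi * Complex.I * n * (τ : ℂ) / N)) s) :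
    HasSum (fun m : ℕ => f.coeff ((m : ℤ) - k) • Function.Periodic.qParam (N : ℝ) (τ : ℂ) ^ m)
      (Function.Periodic.qParam (N : ℝ) (τ : ℂ) ^ k * s) := by
  have hinj : Function.Injective (fun m : ℕ => (m : ℤ) - k) := by
    intro a b hab
    simp only at hab
    omega
  have hrange : ∀ x ∉ Set.range (fun m : ℕ => (m : ℤ) - k),
      f.coeff x * Complex.exp (2 * Real.pi * Complex.I * x * (τ : ℂ) / N) = 0 := by
    intro x hx
    have hlt : x < -(k : ℤ) := by
      by_contra hge
      apply hx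
      refine ⟨(x + k).toNat, ?_⟩
      simp only
      have := Int.toNat_of_nonneg (show 0 ≤ x + k by omega)
      omega
    rw [hk x hlt, zero_mul]
  have h1 := (hinj.hasSum_iff hrange).mpr h
  have h2 := h1.mul_left (Function.Periodic.qParam (N : ℝ) (τ : ℂ) ^ k)
  have hfun : (fun m : ℕ => f.coeff ((m : ℤ) - k) • Function.Periodic.qParam (N : ℝ) (τ : ℂ) ^ m) =
      (fun i : ℕ => Function.Periodic.qParam (N : ℝ) (τ : ℂ) ^ k *
        ((fun x : ℤ => f.coeff x * Complex.exp (2 * Real.pi * Complex.I * x * (τ : ℂ) / N)) ∘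
          fun m : ℕ => (m : ℤ) - k) i) := by
    funext m
    simp only [Function.comp_apply, smul_eq_mul]
    rw [exp_eq_qParam_zpow]
    have hq : Function.Periodic.qParam (N : ℝ) (τ : ℂ) ≠ 0 := Complex.exp_ne_zero _
    rw [zpow_sub₀ hq, zpow_natCast, zpow_natCast]
    field_simp
  rw [hfun]
  exact h2

end TExpAux

open TExpAux

theorem HasTExp.one (N : ℕ) : HasTExp N 1 1 := by
  intro τ
  have h := hasSum_single (f := fun n : ℤ => (1 : LaurentSeries ℂ).coeff n *
    Complex.exp (2 * Real.pi * Complex.I * n * (τ : ℂ) / N)) (0 : ℤ) (by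
      intro b hb
      rw [HahnSeries.coeff_one, if_neg hb, zero_mul])
  convert h using 1
  simp [HahnSeries.coeff_one]

theorem HasTExp.add {N : ℕ} {F G : ℍ → ℂ} {f g : LaurentSeries ℂ}
    (hF : HasTExp N F f) (hG : HasTExp N G g) : HasTExp N (F + G) (f + g) := by
  intro τ
  have h := (hF τ).add (hG τ)
  have hfun : (fun n : ℤ => (f + g).coeff n *
      Complex.exp (2 * Real.pi * Complex.I * n * (τ : ℂ) / N)) =
      (fun n : ℤ => f.coeff n * Complex.exp (2 * Real.pi * Complex.I * n * (τ : ℂ) / N) +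
        g.coeff n * Complex.exp (2 * Real.pi * Complex.I * n * (τ : ℂ) / N)) := by
    funext n
    rw [HahnSeries.coeff_add, add_mul]
  rw [hfun]
  exact h

theorem HasTExp.neg {N : ℕ} {F : ℍ → ℂ} {f : LaurentSeries ℂ}
    (hF : HasTExp N F f) : HasTExp N (-F) (-f) := by
  intro τ
  have h := (hF τ).neg
  have hfun : (fun n : ℤ => (-f).coeff n *
      Complex.exp (2 * Real.pi * Complex.I * n * (τ : ℂ) / N)) =
      (fun n : ℤ => -(f.coeff n * Complex.exp (2 * Real.pi * Complex.I * n * (τ : ℂ) / N))) := by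
    funext n
    rw [HahnSeries.coeff_neg, neg_mul]
  rw [hfun]
  exact h

theorem HasTExp.mul {N : ℕ} [NeZero N] {F G : ℍ → ℂ} {f g : LaurentSeries ℂ}
    (hF : HasTExp N F f) (hG : HasTExp N G g) : HasTExp N (F * G) (f * g) := by
  intro τ
  have h1 := hF τ
  have h2 := hG τ
  have hsum := summable_mul_of_summable_norm h1.summable.norm h2.summable.norm
  have h3 := h1.mul h2 hsum
  -- reindex `(n, a) ↦ (a, n - a)`
  let φ : ℤ × ℤ ≃ ℤ × ℤ :=
    { toFun := fun p => (p.2, p.1 - p.2)
      invFun := fun p => (p.1 + p.2, p.1)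
      left_inv := fun p => by ext <;> simp
      right_inv := fun p => by ext <;> simp }
  have h4 := (Equiv.hasSum_iff φ).mpr h3
  refine HasSum.prod_fiberwise h4 (fun n => ?_)
  have h5 := hasSum_coeff_mul f g n (Complex.exp (2 * Real.pi * Complex.I * n * (τ : ℂ) / N))
  convert h5 using 1
  funext a
  simp only [Function.comp_apply, φ, Equiv.coe_fn_mk]
  have h6 := exp_add_index N τ a (n - a)
  rw [show a + (n - a) = n by ring] at h6
  rw [h6]
  ring

/-- Uniqueness of the expansion (identity theorem for Laurent series on the punctured disc). -/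
theorem HasTExp.unique {N : ℕ} [NeZero N] {F : ℍ → ℂ} {f g : LaurentSeries ℂ}
    (hf : HasTExp N F f) (hg : HasTExp N F g) : f = g := by
  have hN : (0 : ℝ) < N := Nat.cast_pos.mpr (Nat.pos_of_ne_zero (NeZero.ne N))
  -- the difference expands the zero function
  have hd : ∀ τ : ℍ, HasSum (fun n : ℤ => (f - g).coeff n *
      Complex.exp (2 * Real.pi * Complex.I * n * (τ : ℂ) / N)) 0 := by
    intro τ
    have h := (hf τ).sub (hg τ)
    rw [sub_self] at h
    have hfun : (fun n : ℤ => (f - g).coeff n *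
        Complex.exp (2 * Real.pi * Complex.I * n * (τ : ℂ) / N)) =
        (fun n : ℤ => f.coeff n * Complex.exp (2 * Real.pi * Complex.I * n * (τ : ℂ) / N) -
          g.coeff n * Complex.exp (2 * Real.pi * Complex.I * n * (τ : ℂ) / N)) := by
      funext n
      rw [HahnSeries.coeff_sub, sub_mul]
    rw [hfun]
    exact h
  obtain ⟨k, hk⟩ := exists_bound (f - g)
  have hnat : ∀ τ : ℍ, HasSum (fun m : ℕ => (f - g).coeff ((m : ℤ) - k) •
      Function.Periodic.qParam (N : ℝ) (τ : ℂ) ^ m) ((0 : ℍ → ℂ) τ) := by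
    intro τ
    have h := hasSum_nat_of_hasSum_int N (f - g) k hk τ 0 (hd τ)
    simpa using h
  have hcusp : cuspFunction (N : ℝ) (0 : ℍ → ℂ) = 0 := by
    simpa [cuspFunction, Function.Periodic.cuspFunction]
      using! (tendsto_const_nhds.mono_left nhdsWithin_le_nhds).limUnder_eq
  have han : AnalyticAt ℂ (cuspFunction (N : ℝ) (0 : ℍ → ℂ)) 0 := by
    rw [hcusp]
    exact analyticAt_const
  have hzero : ∀ m : ℕ, (f - g).coeff ((m : ℤ) - k) = 0 := by
    intro m
    have h1 := (hasFPowerSeriesOnBall_cuspFunction (f := (0 : ℍ → ℂ))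
      (c := fun m : ℕ => (f - g).coeff ((m : ℤ) - k)) hN han hnat).hasFPowerSeriesAt
    rw [hcusp] at h1
    have h2 := h1.eq_zero
    have h3 := congr_arg (FormalMultilinearSeries.coeff · m) h2
    have h4 : FormalMultilinearSeries.coeff (0 : FormalMultilinearSeries ℂ ℂ ℂ) m = 0 := by
      simp [FormalMultilinearSeries.coeff]
    rw [h4] at h3
    simpa [FormalMultilinearSeries.coeff_ofScalars] using h3
  have hall : f - g = 0 := by
    ext n
    rw [HahnSeries.coeff_zero]
    by_cases hn : n < -(k : ℤ)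
    · exact hk n hn
    · have := hzero (n + k).toNat
      have h2 := Int.toNat_of_nonneg (show 0 ≤ n + k by omega)
      rw [show (((n + k).toNat : ℕ) : ℤ) - k = n by omega] at this
      exact this
  exact sub_eq_zero.mp hall

/-- A function with a `t`-expansion of order `≥ -m N` becomes bounded at `i∞` after multiplication
by `Δ^m`. -/
theorem HasTExp.isBoundedAtImInfty {N : ℕ} [NeZero N] {F : ℍ → ℂ} {f : LaurentSeries ℂ}
    (hF : HasTExp N F f) (m : ℕ) (hm : -((m : ℤ) * (N : ℤ)) ≤ f.order) :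
    IsBoundedAtImInfty (fun τ : ℍ => ModularForm.discriminant τ ^ m * F τ) := by
  have hN : (0 : ℝ) < N := Nat.cast_pos.mpr (Nat.pos_of_ne_zero (NeZero.ne N))
  have hk : ∀ n : ℤ, n < -((m * N : ℕ) : ℤ) → f.coeff n = 0 := by
    intro n hn
    apply HahnSeries.coeff_eq_zero_of_lt_order
    push_cast at hn
    omega
  -- `G = t^(mN) F` is bounded
  have hG : IsBoundedAtImInfty
      (fun τ : ℍ => Function.Periodic.qParam (N : ℝ) (τ : ℂ) ^ (m * N) * F τ) :=
    isBoundedAtImInfty_of_hasSum_qExpansion hN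
      (fun τ => hasSum_nat_of_hasSum_int N f (m * N) hk τ (F τ) (hF τ))
  -- the product factor is bounded
  have hP : IsBoundedAtImInfty
      (fun τ : ℍ => (∏' n : ℕ, (1 - ModularForm.eta_q n (τ : ℂ)) ^ 24) ^ m) := by
    have h := (ModularForm.tendsto_atImInfty_tprod_one_sub_eta_q_pow.pow m)
    exact h.isBigO_one ℝ
  have hmul := Filter.BoundedAtFilter.mul hP hG
  have heq : (fun τ : ℍ => ModularForm.discriminant τ ^ m * F τ) =
      (fun τ : ℍ => (∏' n : ℕ, (1 - ModularForm.eta_q n (τ : ℂ)) ^ 24) ^ m) *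
        (fun τ : ℍ => Function.Periodic.qParam (N : ℝ) (τ : ℂ) ^ (m * N) * F τ) := by
    funext τ
    simp only [Pi.mul_apply]
    rw [ModularForm.discriminant_eq_q_prod, mul_pow]
    have hq : Function.Periodic.qParam (1 : ℝ) (τ : ℂ) =
        Function.Periodic.qParam (N : ℝ) (τ : ℂ) ^ N := by
      rw [Function.Periodic.qParam, Function.Periodic.qParam, ← Complex.exp_nat_mul]
      congr 1
      have : (N : ℂ) ≠ 0 := Nat.cast_ne_zero.mpr (NeZero.ne N)
      push_cast
      field_simp
    rw [hq, ← pow_mul, mul_comm N m]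
    ring
  rw [heq]
  exact hmul

end Fermat.Agent.S28
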